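import Fermat.Agent.Twists.LocalFactors

/-!
# The quadratic character of a square class

For a squarefree `D` the Kronecker symbol of the discriminant of `ℚ(√D)` is a Dirichlet character
whose modulus, `|D|` or `4 |D|`, cannot be lowered.
-/

set_option autoImplicit false

noncomputable section

open ZMod

namespace FA.Twists

/-- The Jacobi symbol `(· / q)` as a character modulo `q`. -/
def symbolChar (q : ℕ) [NeZero q] : DirichletCharacter ℂ q where
  toFun a := (jacobiSym (a.val : ℤ) q : ℂ)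
  map_one' := by
    rw [← Nat.cast_one, ZMod.val_natCast, Int.natCast_mod, ← jacobiSym.mod_left, Nat.cast_one,
      jacobiSym.one_left, Int.cast_one]
  map_mul' a b := by
    rw [ZMod.val_mul, Int.natCast_mod, ← jacobiSym.mod_left, Nat.cast_mul, jacobiSym.mul_left,
      Int.cast_mul]
  map_nonunit' a ha := by
    rw [Int.cast_eq_zero, jacobiSym.eq_zero_iff_not_coprime, Int.gcd_natCast_natCast]
    exact fun h => ha (by
      rw [← ZMod.natCast_zmod_val a]; exact (ZMod.isUnit_iff_coprime _ _).mpr h)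

theorem symbolChar_natCast (q : ℕ) [NeZero q] (n : ℕ) :
    symbolChar q (n : ZMod q) = (jacobiSym n q : ℂ) := by
  show ((jacobiSym ((n : ZMod q).val : ℤ) q : ℤ) : ℂ) = _
  rw [ZMod.val_natCast, Int.natCast_mod, ← jacobiSym.mod_left]

theorem jacobiSym_eq_one_of_dvd {n m : ℕ} (h : (m : ℤ) ∣ (n : ℤ) - 1) : jacobiSym n m = 1 := by
  rw [jacobiSym.mod_left' (a₂ := 1) (Int.modEq_iff_dvd.mpr (by simpa using h.neg_right)),
    jacobiSym.one_left]

/-- The value of `twistChar` at a number prime to the modulus. -/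
theorem twistChar_natCast {q : ℕ} [NeZero q] {D : ℤ} (hq : 4 * D.natAbs ∣ q) {n : ℕ}
    (hn : n.Coprime q) : twistChar hq (n : ZMod q) = (jacobiSym D n : ℂ) := by
  rw [← ZMod.coe_unitOfCoprime n hn, twistChar_unit, ZMod.coe_unitOfCoprime, ZMod.val_natCast,
    jacobiSym_mod hq hn]

/-- A number congruent to one modulo `b` and a non-residue modulo the prime `p ∤ b`. -/
theorem exists_nonresidue {p : ℕ} [Fact p.Prime] (hp2 : p ≠ 2) {b : ℕ} (hpb : ¬ p ∣ b) :
    ∃ n : ℕ, (b : ℤ) ∣ (n : ℤ) - 1 ∧ jacobiSym n p = -1 := by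
  obtain ⟨a, ha⟩ := FiniteField.exists_nonsquare (F := ZMod p)
    ((ZMod.ringChar_zmod_n p).trans_ne hp2)
  obtain ⟨n, hnp, hnb⟩ := Nat.chineseRemainder
    ((Nat.Prime.coprime_iff_not_dvd (Fact.out : p.Prime)).mpr hpb) a.val 1
  refine ⟨n, by simpa using (Nat.modEq_iff_dvd.mp hnb).neg_right, ?_⟩
  rw [← jacobiSym.legendreSym.to_jacobiSym, legendreSym.eq_neg_one_iff]
  rwa [Int.cast_natCast, (ZMod.natCast_eq_natCast_iff _ _ _).mpr hnp, ZMod.natCast_zmod_val]

/-- For an odd squarefree `m` and a prime `p ∣ m` some `n ≡ 1` modulo `c m / p` has `(n / m) = -1`,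
`c` prime to `p`. -/
theorem exists_symbol_eq_neg_one {m c p : ℕ} [Fact p.Prime] (hm : Odd m) (hsq : Squarefree m)
    (hpm : p ∣ m) (hpc : ¬ p ∣ c) :
    ∃ n : ℕ, ((c * (m / p) : ℕ) : ℤ) ∣ (n : ℤ) - 1 ∧ jacobiSym n m = -1 := by
  have hp : p.Prime := Fact.out
  obtain ⟨r, rfl⟩ := hpm
  rw [Nat.mul_div_cancel_left _ hp.pos]
  obtain ⟨n, hn, hs⟩ := exists_nonresidue (p := p)
    (fun e => by subst e; exact absurd hm (Nat.not_odd_iff_even.mpr (even_two_mul r)))
    (b := c * r) (fun h => (hp.dvd_mul.mp h).elim hpc fun ⟨s, hs⟩ => hp.not_isUnit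
      (hsq p ⟨s, by rw [hs]; ring⟩))
  refine ⟨n, hn, ?_⟩
  rw [jacobiSym.mul_right' _ hp.ne_zero (right_ne_zero_of_mul hsq.ne_zero), hs,
    jacobiSym_eq_one_of_dvd ((Int.natCast_dvd_natCast.mpr (dvd_mul_left r c)).trans hn), mul_one]

/-- The character `(D / ·)` modulo `4 |D|` has no smaller modulus for `D ≢ 1 mod 4`. -/
theorem twistChar_nondegenerate {D : ℤ} [NeZero (4 * D.natAbs)] (hD : Squarefree D)
    (hD4 : D % 4 ≠ 1) {p : ℕ} [Fact p.Prime] (hp : p ∣ 4 * D.natAbs) :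
    ∃ n : ℕ, ((4 * D.natAbs / p : ℕ) : ℤ) ∣ (n : ℤ) - 1 ∧
      twistChar (dvd_refl (4 * D.natAbs)) (n : ZMod (4 * D.natAbs)) = -1 := by
  suffices h : ∃ n : ℕ, ((4 * D.natAbs / p : ℕ) : ℤ) ∣ (n : ℤ) - 1 ∧ n.Coprime (4 * D.natAbs) ∧
      jacobiSym D n = -1 by
    obtain ⟨n, h1, h2, h3⟩ := h
    exact ⟨n, h1, by rw [twistChar_natCast _ h2, h3]; norm_num⟩
  have hsq := Int.squarefree_natAbs.mpr hD
  have hcop : ∀ n : ℕ, Odd n → jacobiSym D n = -1 → n.Coprime (4 * D.natAbs) := fun n hn h => by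
    refine Nat.Coprime.mul_right ((Nat.coprime_two_right.mpr hn).pow_right 2) ?_
    by_contra hc
    rw [(jacobiSym.eq_zero_iff).mpr ⟨hn.pos.ne', by
      rw [Int.gcd_eq_natAbs, Int.natAbs_natCast]
      exact fun e => hc (Nat.coprime_comm.mp e)⟩] at h
    norm_num at h
  -- `D` is `± 2 ^ a m` with `m` odd
  obtain ⟨σ, a, m, hσ, ha, hm, hD'⟩ : ∃ (σ : ℤ) (a m : ℕ),
      (σ = 1 ∨ σ = -1) ∧ a ≤ 1 ∧ Odd m ∧ D = σ * (2 ^ a * m : ℕ) := by
    have hσ : D = D.sign * (D.natAbs : ℤ) := (Int.sign_mul_natAbs D).symm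
    have hs : D.sign = 1 ∨ D.sign = -1 := by
      rcases Int.sign_trichotomy D with h | h | h
      exacts [Or.inl h, absurd (Int.sign_eq_zero_iff_zero.mp h) hD.ne_zero, Or.inr h]
    rcases Nat.even_or_odd D.natAbs with ⟨m, hm⟩ | hm
    · refine ⟨D.sign, 1, m, hs, le_rfl, Nat.not_even_iff_odd.mp fun ⟨r, hr⟩ => ?_, ?_⟩
      · exact Nat.prime_two.not_isUnit (hsq 2 ⟨r, by omega⟩)
      · rw [hσ, Int.sign_mul_natAbs]; conv_lhs => rw [hσ, hm]
        push_cast; ring
    · exact ⟨D.sign, 0, D.natAbs, hs, zero_le_one, hm, by simpa using hσ⟩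
  have hDa : D.natAbs = 2 ^ a * m := by
    rw [hD', Int.natAbs_mul, Int.natAbs_natCast]
    rcases hσ with rfl | rfl <;> simp
  have hval : ∀ n : ℕ, Odd n →
      jacobiSym D n = jacobiSym σ n * jacobiSym 2 n ^ a * jacobiSym m n := fun n hn => by
    rw [hD', jacobiSym.mul_left, Nat.cast_mul, jacobiSym.mul_left, Nat.cast_pow,
      jacobiSym.pow_left, mul_assoc, Nat.cast_ofNat]
  have hσv : ∀ n : ℕ, n % 4 = 1 → jacobiSym σ n = 1 := fun n hn => by
    have hno : Odd n := Nat.odd_iff.mpr (by omega)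
    rcases hσ with rfl | rfl
    · exact jacobiSym.one_left n
    · rw [jacobiSym.at_neg_one hno, χ₄_nat_one_mod_four hn]
  have hmv : ∀ n : ℕ, n % 4 = 1 → jacobiSym m n = jacobiSym n m := fun n hn =>
    jacobiSym.quadratic_reciprocity_one_mod_four' hm hn
  rw [hDa] at hp ⊢
  by_cases hp2 : p = 2
  · subst hp2
    interval_cases a
    · -- `D ≡ 3 mod 4`
      refine ⟨1 + 2 * m, ?_, ?_⟩
      · rw [pow_zero, one_mul, show 4 * m / 2 = 2 * m by omega]
        exact ⟨1, by push_cast; ring⟩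
      have hn : (1 + 2 * m) % 4 = 3 := by obtain ⟨r, rfl⟩ := hm; omega
      have hno : Odd (1 + 2 * m) := Nat.odd_iff.mpr (by omega)
      have h1 : jacobiSym ((1 + 2 * m : ℕ) : ℤ) m = 1 :=
        jacobiSym_eq_one_of_dvd ⟨2, by push_cast; ring⟩
      have hj : jacobiSym D (1 + 2 * m) = -1 := by
        rw [hval _ hno, pow_zero, mul_one]
        have hD2 : D = σ * m := by rw [hD']; push_cast; ring
        rcases Nat.odd_mod_four_iff.mp (Nat.odd_iff.mp hm) with h4 | h4
        · rw [jacobiSym.quadratic_reciprocity_one_mod_four h4 hno, h1, mul_one]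
          obtain rfl : σ = -1 := hσ.resolve_left fun e => by subst e; omega
          rw [jacobiSym.at_neg_one hno, χ₄_nat_three_mod_four hn]
        · rw [jacobiSym.quadratic_reciprocity_three_mod_four h4 hn, h1]
          obtain rfl : σ = 1 := hσ.resolve_right fun e => by subst e; omega
          rw [jacobiSym.one_left, one_mul]
      exact ⟨(hDa ▸ hcop _ hno hj :), hj⟩
    · -- `D` even
      refine ⟨1 + 4 * m, ?_, ?_⟩
      · rw [show 4 * (2 ^ 1 * m) / 2 = 4 * m by omega]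
        exact ⟨1, by push_cast; ring⟩
      have hn : (1 + 4 * m) % 4 = 1 := by omega
      have hno : Odd (1 + 4 * m) := Nat.odd_iff.mpr (by omega)
      have hj : jacobiSym D (1 + 4 * m) = -1 := by
        rw [hval _ hno, hσv _ hn, hmv _ hn, jacobiSym_eq_one_of_dvd ⟨4, by push_cast; ring⟩,
          jacobiSym.at_two hno, χ₈_nat_eq_if_mod_eight, if_neg (by omega),
          if_neg (by obtain ⟨r, rfl⟩ := hm; omega)]
        norm_num
      exact ⟨(hDa ▸ hcop _ hno hj :), hj⟩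
  · have hp' : p.Prime := Fact.out
    have hpm : p ∣ m := by
      rcases hp'.dvd_mul.mp hp with h | h
      · exact absurd ((Nat.prime_dvd_prime_iff_eq hp' Nat.prime_two).mp
          (hp'.dvd_of_dvd_pow (n := 2) h)) hp2
      · exact (hp'.dvd_mul.mp h).resolve_left fun h' => hp2
          ((Nat.prime_dvd_prime_iff_eq hp' Nat.prime_two).mp (hp'.dvd_of_dvd_pow h'))
    have h8 : ¬ p ∣ 8 := fun h => hp2
      ((Nat.prime_dvd_prime_iff_eq hp' Nat.prime_two).mp (hp'.dvd_of_dvd_pow (n := 3) h))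
    obtain ⟨n, hn, hs⟩ := exists_symbol_eq_neg_one hm
      (hsq.squarefree_of_dvd (hDa ▸ dvd_mul_left m (2 ^ a))) hpm h8
    have hn8 : n % 8 = 1 := by
      have : ((8 : ℕ) : ℤ) ∣ (n : ℤ) - 1 :=
        (Int.natCast_dvd_natCast.mpr (dvd_mul_right 8 _)).trans hn
      omega
    have hno : Odd n := Nat.odd_iff.mpr (by omega)
    refine ⟨n, (Int.natCast_dvd_natCast.mpr ?_).trans hn, ?_⟩
    · rw [← mul_assoc, Nat.mul_div_assoc _ hpm]
      refine Nat.mul_dvd_mul_right ?_ _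
      interval_cases a <;> norm_num
    have hj : jacobiSym D n = -1 := by
      rw [hval _ hno, hσv _ (by omega), hmv _ (by omega), hs, jacobiSym.at_two hno,
        χ₈_nat_eq_if_mod_eight, if_neg (by omega), if_pos (Or.inl hn8), one_pow, one_mul, one_mul]
    exact ⟨(hDa ▸ hcop _ hno hj :), hj⟩

/-- A character with the values `twistSign D` at the primes. -/
theorem exists_twistSign_char {D : ℤ} (hD : Squarefree D) :
    ∃ (q : ℕ) (ψ : DirichletCharacter ℂ q), q = (if D % 4 = 1 then D.natAbs else 4 * D.natAbs) ∧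
      0 < q ∧ (∀ u : (ZMod q)ˣ, ψ u * ψ u = 1) ∧
      (∀ p : ℕ, p.Prime → p ∣ q → ∃ n : ℕ, ((q / p : ℕ) : ℤ) ∣ (n : ℤ) - 1 ∧
        ψ (n : ZMod q) = -1) ∧
      ∀ l : ℕ, l.Prime → ψ (l : ZMod q) = (twistSign D l : ℂ) := by
  have hq0 : 0 < D.natAbs := Int.natAbs_pos.mpr hD.ne_zero
  by_cases hD4 : D % 4 = 1
  · have : NeZero D.natAbs := ⟨hq0.ne'⟩
    refine ⟨D.natAbs, symbolChar D.natAbs, (if_pos hD4).symm, hq0, fun u => ?_, fun p hp hpq => ?_,
      fun l hl => ?_⟩
    · have h := ZMod.val_coe_unit_coprime u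
      rw [← ZMod.natCast_zmod_val (u : ZMod D.natAbs), symbolChar_natCast, ← Int.cast_mul,
        ← pow_two, jacobiSym.sq_one (by rwa [Int.gcd_natCast_natCast]), Int.cast_one]
    · have := Fact.mk hp
      obtain ⟨n, hn, hs⟩ := exists_symbol_eq_neg_one (c := 1) (p := p)
        (Nat.odd_iff.mpr (by omega : D.natAbs % 2 = 1)) (Int.squarefree_natAbs.mpr hD) hpq
        hp.not_dvd_one
      exact ⟨n, by simpa using hn, by rw [symbolChar_natCast, hs]; norm_num⟩
    rw [symbolChar_natCast, Int.cast_inj]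
    have hqo : Odd D.natAbs := Nat.odd_iff.mpr (by omega)
    rcases eq_or_ne l 2 with rfl | hl2
    · rw [Nat.cast_ofNat, jacobiSym.at_two hqo, χ₈_nat_eq_if_mod_eight, twistSign, if_pos rfl]
      split_ifs <;> omega
    rw [twistSign, if_neg hl2]
    have hlo : Odd l := hl.odd_of_ne_two hl2
    rcases le_total 0 D with h | h
    · have e : (D.natAbs : ℤ) = D := Int.natAbs_of_nonneg h
      conv_rhs => rw [← e]
      exact (jacobiSym.quadratic_reciprocity_one_mod_four (by omega) hlo).symm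
    · have e : -(D.natAbs : ℤ) = D := by omega
      conv_rhs => rw [← e]
      rw [jacobiSym.neg _ hlo]
      rcases Nat.odd_mod_four_iff.mp (Nat.odd_iff.mp hlo) with h4 | h4
      · rw [χ₄_nat_one_mod_four h4, one_mul,
          jacobiSym.quadratic_reciprocity_one_mod_four' hqo h4]
      · rw [χ₄_nat_three_mod_four h4, neg_one_mul,
          jacobiSym.quadratic_reciprocity_three_mod_four (b := l) (by omega) h4, neg_neg]
  · have : NeZero (4 * D.natAbs) := ⟨by omega⟩
    refine ⟨4 * D.natAbs, twistChar (dvd_refl _), (if_neg hD4).symm, by omega,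
      fun u => twistChar_sq _ u, fun p hp hpq => by
        have := Fact.mk hp
        exact twistChar_nondegenerate hD hD4 hpq, fun l hl => ?_⟩
    have := Fact.mk hl
    by_cases hlq : l ∣ 4 * D.natAbs
    · rw [MulChar.map_nonunit _ fun h => hl.ne_one
        (Nat.dvd_one.mp (((ZMod.isUnit_iff_coprime _ _).mp h) ▸ Nat.dvd_gcd dvd_rfl hlq))]
      rcases eq_or_ne l 2 with rfl | hl2
      · rw [twistSign, if_pos rfl, if_neg (by omega), if_neg (by omega), Int.cast_zero]
      · have hlD : l ∣ D.natAbs := (hl.dvd_mul.mp hlq).resolve_left fun h =>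
          hl2 ((Nat.prime_dvd_prime_iff_eq hl Nat.prime_two).mp
            (hl.dvd_of_dvd_pow (n := 2) h))
        rw [twistSign, if_neg hl2, ← jacobiSym.legendreSym.to_jacobiSym,
          (legendreSym.eq_zero_iff l D).mpr
            ((ZMod.intCast_zmod_eq_zero_iff_dvd _ _).mpr (Int.natCast_dvd.mpr hlD)), Int.cast_zero]
    · rw [twistChar_prime _ hlq, twistSign, if_neg fun h => hlq (by subst h; exact ⟨2 * D.natAbs, by ring⟩),
        jacobiSym.legendreSym.to_jacobiSym]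

/-- The square class of a nonzero rational. -/
theorem exists_squarefree_mul_sq {d : ℚ} (hd : d ≠ 0) :
    ∃ (D : ℤ) (t : ℚ), Squarefree D ∧ t ≠ 0 ∧ d = t ^ 2 * D := by
  have hN : d.num * d.den ≠ 0 :=
    mul_ne_zero (Rat.num_ne_zero.mpr hd) (Int.natCast_ne_zero.mpr d.den_nz)
  have hdN : d = ((d.num * d.den : ℤ) : ℚ) / (d.den : ℚ) ^ 2 := by
    push_cast
    rw [pow_two, mul_div_mul_right _ _ (Nat.cast_ne_zero.mpr d.den_nz), Rat.num_div_den]
  obtain ⟨a, b, -, hb, hab, ha⟩ := Nat.sq_mul_squarefree_of_pos (Int.natAbs_pos.mpr hN)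
  obtain ⟨D, hD, hDN⟩ : ∃ D : ℤ, Squarefree D ∧ d.num * d.den = (b : ℤ) ^ 2 * D := by
    rcases Int.natAbs_eq (d.num * d.den) with e | e <;> rw [← hab] at e <;> push_cast at e
    · exact ⟨a, Int.squarefree_natCast.mpr ha, e⟩
    · exact ⟨-a, by rw [← Int.squarefree_natAbs]; simpa using ha, by rw [e]; ring⟩
  refine ⟨D, (b : ℚ) / d.den, hD, div_ne_zero (Nat.cast_ne_zero.mpr hb.ne')
    (Nat.cast_ne_zero.mpr d.den_nz), ?_⟩
  conv_lhs => rw [hdN, hDN]
  push_cast
  ring

end FA.Twists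

end
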