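import Fermat.Prelude.Def_FLTPrelim_Modularity
import Mathlib.NumberTheory.LegendreSymbol.JacobiSymbol
import Mathlib.NumberTheory.DirichletCharacter.Basic
import Mathlib.NumberTheory.LegendreSymbol.QuadraticChar.Basic

/-!
# Traces of quadratic twists, and the character of a twist
-/

set_option autoImplicit false
set_option linter.unusedSectionVars false

noncomputable section

namespace FA.Twists

open WeierstrassCurve

/-- The short model attached to `(c₄, c₆)`. -/
def short {R : Type*} [CommRing R] (a b : R) : WeierstrassCurve R :=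
  ⟨0, 0, 0, -27 * a, -54 * b⟩

lemma short_map {R S : Type*} [CommRing R] [CommRing S] (f : R →+* S) (a b : R) :
    (short a b).map f = short (f a) (f b) := by
  ext <;> simp [short, map_ofNat]

lemma short_c₄ {R : Type*} [CommRing R] (a b : R) : (short a b).c₄ = 6 ^ 4 * a := by
  simp only [short, c₄, b₂, b₄]; ring

lemma short_c₆ {R : Type*} [CommRing R] (a b : R) : (short a b).c₆ = 6 ^ 6 * b := by
  simp only [short, c₆, b₂, b₄, b₆]; ring

lemma short_Δ {R : Type*} [CommRing R] (a b : R) :
    (short a b).Δ = 1259712 * (a ^ 3 - b ^ 2) := by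
  simp only [short, WeierstrassCurve.Δ, b₂, b₄, b₆, b₈]
  ring

variable {F : Type*} [Field F] [Fintype F] [DecidableEq F]

/-- The number of points in terms of the quadratic character. -/
theorem natCard_point_eq_sum (hF : ringChar F ≠ 2) (U : WeierstrassCurve F) (hΔ : U.Δ ≠ 0) :
    (Nat.card U.toAffine.Point : ℤ) = Fintype.card F + 1 +
      ∑ x : F, quadraticChar F (4 * x ^ 3 + U.b₂ * x ^ 2 + 2 * U.b₄ * x + U.b₆) := by
  classical
  have h2 : (2 : F) ≠ 0 := Ring.two_ne_zero hF
  have heq : ∀ x y : F, U.toAffine.Equation x y ↔ (2 * y + U.a₁ * x + U.a₃) ^ 2 =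
      4 * x ^ 3 + U.b₂ * x ^ 2 + 2 * U.b₄ * x + U.b₆ := by
    intro x y
    rw [Affine.equation_iff]
    simp only [b₂, b₄, b₆]
    constructor <;> intro h
    · linear_combination 4 * h
    · exact mul_left_cancel₀ (mul_ne_zero h2 h2) (by linear_combination h)
  let e : U.toAffine.Point ≃ Option (Σ x : F,
      {Y : F // Y ^ 2 = 4 * x ^ 3 + U.b₂ * x ^ 2 + 2 * U.b₄ * x + U.b₆}) :=
    { toFun := fun P => match P with
        | .zero => none
        | .some x y h => some ⟨x, 2 * y + U.a₁ * x + U.a₃, (heq x y).1 h.1⟩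
      invFun := fun o => match o with
        | none => .zero
        | some ⟨x, Y, h⟩ => .some x ((Y - U.a₁ * x - U.a₃) / 2)
            ((Affine.equation_iff_nonsingular_of_Δ_ne_zero hΔ).1 ((heq _ _).2 (by
              rw [mul_div_cancel₀ _ h2]; linear_combination h)))
      left_inv := fun P => by
        rcases P with _ | ⟨x, y, h⟩
        · rfl
        · exact (Affine.Point.some.injEq ..).mpr ⟨rfl, by rw [div_eq_iff h2]; ring⟩
      right_inv := fun o => by
        rcases o with _ | ⟨x, Y, h⟩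
        · rfl
        · refine congrArg some (Sigma.ext rfl (heq_of_eq (Subtype.ext ?_)))
          show 2 * ((Y - U.a₁ * x - U.a₃) / 2) + U.a₁ * x + U.a₃ = Y
          rw [mul_div_cancel₀ _ h2]; ring }
  have hy : ∀ c : F, (Fintype.card {y : F // y ^ 2 = c} : ℤ) = quadraticChar F c + 1 := fun c => by
    rw [← quadraticChar_card_sqrts hF c, Set.toFinset_card]
    rfl
  rw [Nat.card_congr e, Nat.card_eq_fintype_card, Fintype.card_option, Fintype.card_sigma]
  push_cast
  simp only [hy, Finset.sum_add_distrib, Finset.sum_const, Finset.card_univ, nsmul_one]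
  ring

/-- The number of points of a short model in terms of the quadratic character. -/
theorem natCard_point_short (hF : ringChar F ≠ 2) {a b : F} (hΔ : (short a b).Δ ≠ 0) :
    (Nat.card (short a b).toAffine.Point : ℤ) =
      Fintype.card F + 1 + ∑ x : F, quadraticChar F (x ^ 3 + -27 * a * x + -54 * b) := by
  rw [natCard_point_eq_sum hF _ hΔ]
  congr 1
  refine Finset.sum_congr rfl fun x _ => ?_
  rw [← one_mul (quadraticChar F (x ^ 3 + _ + _)),
    ← quadraticChar_sq_one' (Ring.two_ne_zero hF), ← map_mul]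
  congr 1
  simp only [short, b₂, b₄, b₆]
  ring

/-- The trace of the twist by `d`. -/
theorem traceOfFrobenius_short_twist (hF : ringChar F ≠ 2) {d a b : F} (hd : d ≠ 0)
    (hΔ : (short a b).Δ ≠ 0) :
    (short (d ^ 2 * a) (d ^ 3 * b)).traceOfFrobenius =
      quadraticChar F d * (short a b).traceOfFrobenius := by
  have hΔ' : (short (d ^ 2 * a) (d ^ 3 * b)).Δ ≠ 0 := by
    rw [short_Δ, show (d ^ 2 * a) ^ 3 - (d ^ 3 * b) ^ 2 = d ^ 6 * (a ^ 3 - b ^ 2) by ring,
      ← mul_left_comm, ← short_Δ]
    exact mul_ne_zero (pow_ne_zero _ hd) hΔ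
  rw [traceOfFrobenius, traceOfFrobenius, WeierstrassCurve.card, WeierstrassCurve.card,
    natCard_point_short hF hΔ, natCard_point_short hF hΔ', Nat.card_eq_fintype_card]
  have h : ∑ x : F, quadraticChar F (x ^ 3 + -27 * (d ^ 2 * a) * x + -54 * (d ^ 3 * b)) =
      quadraticChar F d * ∑ x : F, quadraticChar F (x ^ 3 + -27 * a * x + -54 * b) := by
    rw [Finset.mul_sum]
    refine (Fintype.sum_equiv (Equiv.mulLeft₀ d hd) _ _ fun x => ?_).symm
    rw [show Equiv.mulLeft₀ d hd x = d * x from rfl,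
      show (d * x) ^ 3 + -27 * (d ^ 2 * a) * (d * x) + -54 * (d ^ 3 * b) =
        d ^ 2 * (d * (x ^ 3 + -27 * a * x + -54 * b)) by ring,
      map_mul, quadraticChar_sq_one' hd, one_mul, map_mul]
  rw [h]
  ring

/-- The trace of an integral short model twisted by `D`. -/
theorem apOfModel_short_twist {l : ℕ} [Fact l.Prime] (hl2 : l ≠ 2) {D a b : ℤ}
    (hD : ¬ (l : ℤ) ∣ D) (hgood : (short a b).IsGoodPrimeFor l) :
    (short (D ^ 2 * a) (D ^ 3 * b)).apOfModel l = legendreSym l D * (short a b).apOfModel l := by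
  have e : ∀ a b : ℤ, (short a b).reductionMod l = short (a : ZMod l) (b : ZMod l) := fun a b => by
    rw [reductionMod, short_map]; rfl
  rw [apOfModel, apOfModel, e, e]
  push_cast
  refine traceOfFrobenius_short_twist ((ZMod.ringChar_zmod_n l).trans_ne hl2)
    (fun h => hD ((ZMod.intCast_zmod_eq_zero_iff_dvd _ _).mp h)) fun h => hgood ?_
  rw [← e, reductionMod, map_Δ, eq_intCast] at h
  exact (ZMod.intCast_zmod_eq_zero_iff_dvd _ _).mp h

section character

variable {q : ℕ} [NeZero q] {D : ℤ}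

lemma odd_of_coprime_of_four_dvd (hq : 4 * D.natAbs ∣ q) {n : ℕ} (hn : n.Coprime q) : Odd n := by
  rcases Nat.even_or_odd n with h | h
  · have h2 : 2 ∣ q := (dvd_mul_of_dvd_left (by norm_num) _).trans hq
    have := Nat.dvd_gcd h.two_dvd h2
    rw [hn] at this
    omega
  · exact h

/-- The Jacobi symbol only depends on a class modulo `q`. -/
theorem jacobiSym_mod (hq : 4 * D.natAbs ∣ q) {n : ℕ} (hn : n.Coprime q) :
    jacobiSym D (n % q) = jacobiSym D n := by
  have h1 : (n % q).Coprime q := by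
    rw [Nat.Coprime, ← Nat.gcd_rec, Nat.gcd_comm]
    exact hn
  rw [jacobiSym.mod_right D (odd_of_coprime_of_four_dvd hq h1),
    jacobiSym.mod_right D (odd_of_coprime_of_four_dvd hq hn), Nat.mod_mod_of_dvd n hq]

/-- The Jacobi symbol as a function of units modulo `q`. -/
def jacobiHom (hq : 4 * D.natAbs ∣ q) : (ZMod q)ˣ →* ℂ where
  toFun u := (jacobiSym D (u : ZMod q).val : ℂ)
  map_one' := by
    rw [show ((1 : (ZMod q)ˣ) : ZMod q).val = 1 % q by
      rw [Units.val_one, ← Nat.cast_one, ZMod.val_natCast], jacobiSym_mod hq (Nat.coprime_one_left q),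
      jacobiSym.one_right, Int.cast_one]
  map_mul' u v := by
    have hu := ZMod.val_coe_unit_coprime u
    have hv := ZMod.val_coe_unit_coprime v
    rw [Units.val_mul, ZMod.val_mul, jacobiSym_mod hq (Nat.Coprime.mul_left hu hv),
      jacobiSym.mul_right' D (odd_of_coprime_of_four_dvd hq hu).pos.ne'
        (odd_of_coprime_of_four_dvd hq hv).pos.ne', Int.cast_mul]

/-- The quadratic character `(D / ·)` modulo a multiple `q` of `4 D`. -/
def twistChar (hq : 4 * D.natAbs ∣ q) : DirichletCharacter ℂ q :=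
  MulChar.ofUnitHom (jacobiHom hq).toHomUnits

theorem twistChar_unit (hq : 4 * D.natAbs ∣ q) (u : (ZMod q)ˣ) :
    twistChar hq u = (jacobiSym D (u : ZMod q).val : ℂ) := by
  rw [twistChar, MulChar.ofUnitHom_coe]
  rfl

theorem twistChar_sq (hq : 4 * D.natAbs ∣ q) (u : (ZMod q)ˣ) :
    twistChar hq u * twistChar hq u = 1 := by
  have h : D.gcd ((u : ZMod q).val : ℕ) = 1 := by
    rw [Int.gcd_eq_natAbs, Int.natAbs_natCast]
    exact Nat.Coprime.symm ((ZMod.val_coe_unit_coprime u).coprime_dvd_right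
      ((dvd_mul_left _ _).trans hq))
  rw [twistChar_unit, ← Int.cast_mul, ← pow_two, jacobiSym.sq_one h, Int.cast_one]

theorem twistChar_prime (hq : 4 * D.natAbs ∣ q) {l : ℕ} [hl : Fact l.Prime] (hlq : ¬ l ∣ q) :
    twistChar hq (l : ZMod q) = (legendreSym l D : ℂ) := by
  have hcop : l.Coprime q := hl.out.coprime_iff_not_dvd.mpr hlq
  rw [← ZMod.coe_unitOfCoprime l hcop, twistChar_unit, ZMod.coe_unitOfCoprime, ZMod.val_natCast,
    jacobiSym_mod hq hcop, ← jacobiSym.legendreSym.to_jacobiSym]

end character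

end FA.Twists

end
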