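import Fermat.Agent.Twists.Form
import Fermat.Agent.Twists.Count
import Fermat.Agent.Ribet.Main
import Fermat.Agent.Frob.Models

/-!
# Modularity of quadratic twists of semistable curves

An elliptic curve over `ℚ` one of whose quadratic twists has a semistable integral model is
modular. In particular every curve `y² = x (x - A) (x + B)` with coprime integers `A`, `B` and
`16 ∣ A B (A + B)` is modular.
-/

set_option autoImplicit false

noncomputable section

open WeierstrassCurve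
open FA.Frob (ratCurve)

namespace FA.Twists

/-- The quadratic twist by `d`, in short form. -/
def quadTwist (E : WeierstrassCurve ℚ) (d : ℚ) : WeierstrassCurve ℚ :=
  short (d ^ 2 * E.c₄) (d ^ 3 * E.c₆)

theorem exists_short (E : WeierstrassCurve ℚ) :
    ∃ C : VariableChange ℚ, C • E = short E.c₄ E.c₆ := by
  refine ⟨⟨Units.mk0 (1 / 6 : ℚ) (by norm_num), -E.b₂ / 12, -E.a₁ / 2,
    E.a₁ * E.b₂ / 24 - E.a₃ / 2⟩, ?_⟩
  ext
  all_goals simp only [variableChange_a₁, variableChange_a₂, variableChange_a₃, variableChange_a₄,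
    variableChange_a₆, Units.val_inv_eq_inv_val, Units.val_mk0, short, c₄, c₆, b₂, b₄, b₆]
  all_goals ring

theorem smul_short (v : ℚˣ) (a b : ℚ) :
    (⟨v, 0, 0, 0⟩ : VariableChange ℚ) • short a b =
      short ((↑v⁻¹ : ℚ) ^ 4 * a) ((↑v⁻¹ : ℚ) ^ 6 * b) := by
  ext
  all_goals simp only [variableChange_a₁, variableChange_a₂, variableChange_a₃, variableChange_a₄,
    variableChange_a₆, short]
  all_goals ring

/-- Scaled invariants give an isomorphic curve. -/
theorem exists_smul_eq_short (E : WeierstrassCurve ℚ) {s : ℚ} (hs : s ≠ 0) :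
    ∃ C : VariableChange ℚ, C • E = short (s ^ 4 * E.c₄) (s ^ 6 * E.c₆) := by
  obtain ⟨C, hC⟩ := exists_short E
  refine ⟨⟨(Units.mk0 s hs)⁻¹, 0, 0, 0⟩ * C, ?_⟩
  rw [mul_smul, hC, smul_short, inv_inv, Units.val_mk0]

/-- **A quadratic twist of a semistable curve is modular.** -/
theorem isModular_of_semistable_twist (E : WeierstrassCurve ℚ) [E.IsElliptic] {d : ℚ}
    (hd : d ≠ 0) (W : WeierstrassCurve ℤ) (hW : W.IsIntegralModelOf (quadTwist E d))
    (hs : W.IsSemistableModel) : E.IsModular := by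
  obtain ⟨C, hC⟩ := hW
  set D : ℤ := d.num * d.den with hD
  have hD0 : D ≠ 0 := mul_ne_zero (Rat.num_ne_zero.mpr hd) (Int.natCast_ne_zero.mpr d.den_nz)
  have hDd : (D : ℚ) = (d.den : ℚ) ^ 2 * d := by
    rw [hD, Int.cast_mul, Int.cast_natCast, pow_two, mul_assoc, Rat.den_mul_eq_num]
    ring
  set w : ℚ := ((C.u⁻¹ : ℚˣ) : ℚ) with hw
  have hw0 : w ≠ 0 := Units.ne_zero _
  have h4 : (W.c₄ : ℚ) = w ^ 4 * (6 ^ 4 * (d ^ 2 * E.c₄)) := by
    have h := congrArg WeierstrassCurve.c₄ hC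
    rw [variableChange_c₄, map_c₄, eq_intCast, quadTwist, short_c₄] at h
    exact h.symm
  have h6 : (W.c₆ : ℚ) = w ^ 6 * (6 ^ 6 * (d ^ 3 * E.c₆)) := by
    have h := congrArg WeierstrassCurve.c₆ hC
    rw [variableChange_c₆, map_c₆, eq_intCast, quadTwist, short_c₆] at h
    exact h.symm
  have hΔ : W.Δ ≠ 0 := fun h0 => by
    have h := congrArg WeierstrassCurve.Δ hC
    rw [variableChange_Δ, map_Δ, h0, map_zero, quadTwist, short_Δ,
      show (d ^ 2 * E.c₄) ^ 3 - (d ^ 3 * E.c₆) ^ 2 = d ^ 6 * (E.c₄ ^ 3 - E.c₆ ^ 2) by ring,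
      ← E.c_relation] at h
    exact mul_ne_zero (pow_ne_zero _ (Units.ne_zero _)) (mul_ne_zero (by norm_num)
      (mul_ne_zero (pow_ne_zero _ hd) (mul_ne_zero (by norm_num) E.isUnit_Δ.ne_zero))) h
  set W₀ : WeierstrassCurve ℤ := short W.c₄ W.c₆ with hW₀
  set W' : WeierstrassCurve ℤ := short (D ^ 2 * W.c₄) (D ^ 3 * W.c₆) with hW'
  have hW'E : W'.IsIntegralModelOf E := by
    obtain ⟨C', hC'⟩ := exists_smul_eq_short E (s := 6 * (d.den : ℚ) * d * w)
      (mul_ne_zero (mul_ne_zero (mul_ne_zero (by norm_num) (Nat.cast_ne_zero.mpr d.den_nz)) hd) hw0)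
    refine ⟨C', ?_⟩
    rw [hC', hW', short_map, eq_intCast, eq_intCast]
    push_cast
    rw [hDd, h4, h6]
    congr 1 <;> ring
  have hΔ₀ : W₀.Δ = 6 ^ 12 * W.Δ := by
    rw [hW₀, short_Δ, ← W.c_relation]; ring
  have hΔ' : W'.Δ = D ^ 6 * (6 ^ 12 * W.Δ) := by
    rw [hW', short_Δ,
      show (D ^ 2 * W.c₄) ^ 3 - (D ^ 3 * W.c₆) ^ 2 = D ^ 6 * (W.c₄ ^ 3 - W.c₆ ^ 2) by ring,
      ← W.c_relation]
    ring
  set q : ℕ := 12 * D.natAbs with hq
  have : NeZero q := ⟨mul_ne_zero (by norm_num) (Int.natAbs_ne_zero.mpr hD0)⟩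
  have h4q : 4 * D.natAbs ∣ q := mul_dvd_mul_right (by norm_num) _
  obtain ⟨f, hf, hfl⟩ := FA.SS.semistableModular W hΔ hs
  have : NeZero (FA.Theta.badProd W) := ⟨(FA.Root.badProd_pos W).ne'⟩
  obtain ⟨g, hg, hgn⟩ := exists_twist_eigenform hf (twistChar_sq h4q)
  refine ⟨W', hW'E, _, Nat.pos_of_ne_zero (mul_ne_zero (FA.Root.badProd_pos W).ne'
    (pow_ne_zero 2 (NeZero.ne q))), g, hg, fun l hl hgood' hlM => ?_⟩
  have := Fact.mk hl
  have hlq : ¬ l ∣ q := fun h => hlM ((h.trans (dvd_pow_self q two_ne_zero)).mul_left _)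
  have hlN : ¬ l ∣ FA.Theta.badProd W := fun h => hlM (h.mul_right _)
  have hl2 : l ≠ 2 := fun h => hlq (h ▸ dvd_mul_of_dvd_left (by norm_num) _)
  have hgood : W.IsGoodPrimeFor l := fun h => hgood' (by rw [hΔ']; exact (h.mul_left _).mul_left _)
  have hgood₀ : W₀.IsGoodPrimeFor l := fun h => hgood' (by rw [hΔ', ← hΔ₀]; exact h.mul_left _)
  have hlD : ¬ (l : ℤ) ∣ D := fun h => hlq (dvd_mul_of_dvd_right (Int.natCast_dvd.mp h) 12)
  have := FA.Frob.ratCurve_isElliptic_of_Δ hΔ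
  have hW₀W : W₀.IsIntegralModelOf (ratCurve W) := by
    obtain ⟨C₀, hC₀⟩ := exists_short (ratCurve W)
    refine ⟨C₀, hC₀.trans ?_⟩
    rw [hW₀, short_map, map_c₄, map_c₆]
  have hWW : W.IsIntegralModelOf (ratCurve W) := ⟨1, one_smul _ _⟩
  rw [hgn, twistChar_prime h4q hlq, hfl l hl hgood hlN, hW', apOfModel_short_twist hl2 hlD hgood₀,
    ← FA.Frob.apOfModel_eq hWW hW₀W hl hgood hgood₀]
  push_cast
  ring

/-- The curve `y² = x (x - A) (x + B)`. -/
def threeRoots (A B : ℤ) : WeierstrassCurve ℚ := ⟨0, (B : ℚ) - A, 0, -(A * B : ℚ), 0⟩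

theorem threeRoots_isElliptic {A B : ℤ} (h : A * B * (A + B) ≠ 0) :
    (threeRoots A B).IsElliptic := by
  refine ⟨(show (threeRoots A B).Δ ≠ 0 from ?_).isUnit⟩
  rw [show (threeRoots A B).Δ = 16 * ((A * B * (A + B) : ℤ) : ℚ) ^ 2 by
    simp only [threeRoots, WeierstrassCurve.Δ, b₂, b₄, b₆, b₈]; push_cast; ring]
  exact mul_ne_zero (by norm_num) (pow_ne_zero _ (Int.cast_ne_zero.mpr h))

/-- The symmetric cubic deciding the sign of `c₆`. -/
theorem curve_c₆ {A B : ℤ} (hA : A % 4 = 3) (hB : (16 : ℤ) ∣ B) :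
    2 * (FA.Ribet.curve A B).c₆ = -((B - A) * (2 * A + B) * (A + 2 * B)) := by
  have h2 := FA.Ribet.four_mul_a₂ hA hB
  have h4 := FA.Ribet.sixteen_mul_a₄ hA hB
  have e1 : (FA.Ribet.curve A B).a₁ = 1 := rfl
  have e3 : (FA.Ribet.curve A B).a₃ = 0 := rfl
  have e6 : (FA.Ribet.curve A B).a₆ = 0 := rfl
  have : 2 * (FA.Ribet.curve A B).c₆ = -2 * (1 + 4 * (FA.Ribet.curve A B).a₂) ^ 3 +
      9 * (1 + 4 * (FA.Ribet.curve A B).a₂) * (16 * (FA.Ribet.curve A B).a₄) := by
    simp only [c₆, b₂, b₄, b₆, e1, e3, e6]; ring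
  rw [this, h2, h4]; ring

/-- A change of the roots keeping the invariants up to sign. -/
theorem isModular_threeRoots_of {A B A' B' d : ℤ} (hne : A * B * (A + B) ≠ 0)
    (hd : d = 1 ∨ d = -1) (hA : A' % 4 = 3) (hB : (16 : ℤ) ∣ B') (hcop : IsCoprime A' B')
    (h4 : A' ^ 2 + A' * B' + B' ^ 2 = A ^ 2 + A * B + B ^ 2)
    (h6 : (B' - A') * (2 * A' + B') * (A' + 2 * B') = d * ((B - A) * (2 * A + B) * (A + 2 * B))) :
    (threeRoots A B).IsModular := by
  have := threeRoots_isElliptic hne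
  refine isModular_of_semistable_twist (threeRoots A B) (d := d)
    (by rcases hd with rfl | rfl <;> norm_num) (FA.Ribet.curve A' B') ?_
    (FA.Ribet.curve_semistable hA hB hcop)
  obtain ⟨C, hC⟩ := exists_short (ratCurve (FA.Ribet.curve A' B'))
  refine ⟨C⁻¹ * ⟨Units.mk0 (2 : ℚ) two_ne_zero, 0, 0, 0⟩, ?_⟩
  rw [mul_smul, inv_smul_eq_iff, quadTwist, smul_short]
  refine Eq.trans ?_ hC.symm
  rw [map_c₄, map_c₆, eq_intCast, eq_intCast]
  have hd2 : (d : ℚ) ^ 2 = 1 := by rcases hd with rfl | rfl <;> norm_num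
  congr 1
  · have e : ((FA.Ribet.curve A' B').c₄ : ℚ) = A ^ 2 + A * B + B ^ 2 := by
      rw [FA.Ribet.curve_c₄ hA hB, h4]; push_cast; ring
    have e' : (threeRoots A B).c₄ = 16 * ((A : ℚ) ^ 2 + A * B + B ^ 2) := by
      simp only [threeRoots, c₄, b₂, b₄]; ring
    rw [e, e', Units.val_inv_eq_inv_val, Units.val_mk0]
    linear_combination (((A : ℚ) ^ 2 + A * B + B ^ 2)) * hd2
  · have e : 2 * ((FA.Ribet.curve A' B').c₆ : ℚ) =
        -(d * ((B - A) * (2 * A + B) * (A + 2 * B)) : ℚ) := by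
      have := congrArg (Int.cast : ℤ → ℚ) ((curve_c₆ hA hB).trans (congrArg Neg.neg h6))
      push_cast at this
      exact this
    have e' : (threeRoots A B).c₆ = -32 * (((B : ℚ) - A) * (2 * A + B) * (A + 2 * B)) := by
      simp only [threeRoots, c₆, b₂, b₄, b₆]; ring
    rw [e', Units.val_inv_eq_inv_val, Units.val_mk0]
    linear_combination (-1 / 2 : ℚ) * e +
      (-1 / 2 : ℚ) * (d : ℚ) * ((B - A) * (2 * A + B) * (A + 2 * B)) * hd2

/-- **Every curve `y² = x (x - A) (x + B)` with `A`, `B` coprime and `16 ∣ A B (A + B)` is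
modular.** -/
theorem isModular_threeRoots {A B : ℤ} (hne : A * B * (A + B) ≠ 0) (hcop : IsCoprime A B)
    (h16 : (16 : ℤ) ∣ A * B * (A + B)) : (threeRoots A B).IsModular := by
  have h2 : ∀ x : ℤ, Odd x → IsCoprime (16 : ℤ) x := fun x hx => by
    obtain ⟨k, rfl⟩ := hx
    simpa using (show IsCoprime (2 : ℤ) (2 * k + 1) from ⟨-k, 1, by ring⟩).pow_left (m := 4)
  rcases Int.even_or_odd B with hBe | hBo
  · have hAo : Odd A := Int.not_even_iff_odd.mp fun hAe => by
      have := Int.isUnit_iff.mp (hcop.isUnit_of_dvd' hAe.two_dvd hBe.two_dvd)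
      omega
    have hB16 : (16 : ℤ) ∣ B := (h2 A hAo).dvd_of_dvd_mul_left
      ((h2 (A + B) (hAo.add_even hBe)).dvd_of_dvd_mul_right h16)
    by_cases h3 : A % 4 = 3
    · exact isModular_threeRoots_of hne (Or.inl rfl) h3 hB16 hcop rfl (by ring)
    · exact isModular_threeRoots_of (A' := -A) (B' := -B) hne (Or.inr rfl)
        (by rw [Int.odd_iff] at hAo; omega) hB16.neg_right hcop.neg_neg (by ring) (by ring)
  rcases Int.even_or_odd A with hAe | hAo
  · have hA16 : (16 : ℤ) ∣ A := (h2 B hBo).dvd_of_dvd_mul_right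
      ((h2 (A + B) (hAe.add_odd hBo)).dvd_of_dvd_mul_right h16)
    by_cases h3 : B % 4 = 3
    · exact isModular_threeRoots_of (A' := B) (B' := A) hne (Or.inr rfl) h3 hA16 hcop.symm
        (by ring) (by ring)
    · exact isModular_threeRoots_of (A' := -B) (B' := -A) hne (Or.inl rfl)
        (by rw [Int.odd_iff] at hBo; omega) hA16.neg_right hcop.symm.neg_neg (by ring) (by ring)
  · have hC16 : (16 : ℤ) ∣ A + B :=
      ((h2 A hAo).mul_right (h2 B hBo)).dvd_of_dvd_mul_left h16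
    have hc : IsCoprime A (A + B) := by
      have := hcop.add_mul_left_right 1
      rwa [mul_one, add_comm] at this
    by_cases h3 : A % 4 = 3
    · exact isModular_threeRoots_of (A' := A) (B' := -(A + B)) hne (Or.inr rfl) h3 hC16.neg_right
        hc.neg_right (by ring) (by ring)
    · exact isModular_threeRoots_of (A' := -A) (B' := A + B) hne (Or.inl rfl)
        (by rw [Int.odd_iff] at hAo; omega) hC16 hc.neg_left (by ring) (by ring)

end FA.Twists

end
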