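import Fermat.Agent.LTReduce.Twist
import Fermat.Prelude.Def_FLTPrelim_Modularity

/-!
# Twists of weight two eigenforms by quadratic characters

The twist of a cusp form on `Γ₀(N)` by a character of square one modulo `q` is a cusp form on
`Γ₀(N q²)`; for a normalised eigenform it is a normalised eigenform.
-/

set_option autoImplicit false

noncomputable section

namespace FA.Twists

open UpperHalfPlane ModularForm CongruenceSubgroup Filter FA.Period FA.Weight1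
open FA.HeckeH1 (MatZ)
open FA.LTReduce (twistWeight sum_twistWeight)
open scoped MatrixGroups Manifold Topology

variable {N q : ℕ} [NeZero q] {f : ℍ → ℂ}

/-- Translation by `j / q` in weight two. -/
theorem slash_shiftX_two_apply (f : ℍ → ℂ) (j : ℤ) (τ : ℍ) :
    (f ∣[(2 : ℤ)] mR (shiftX q j)) τ = f (((j : ℝ) / q) +ᵥ τ) := by
  have hdet := shiftX_det_pos (q := q) j
  have hden : UpperHalfPlane.denom (mR (shiftX q j)) τ = (q : ℂ) := by
    simp only [UpperHalfPlane.denom, coe_mR hdet.ne']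
    simp [shiftX]
  have hpt : mR (shiftX q j) • τ = ((j : ℝ) / q) +ᵥ τ := by
    apply UpperHalfPlane.ext
    rw [UpperHalfPlane.coe_smul_of_det_pos (by rw [det_mR hdet.ne']; exact_mod_cast hdet),
      UpperHalfPlane.coe_vadd]
    have hq : (q : ℂ) ≠ 0 := NeZero.ne _
    simp only [UpperHalfPlane.num, UpperHalfPlane.denom, coe_mR hdet.ne']
    simp [shiftX]
    field_simp
    ring
  rw [ModularForm.slash_apply, σ_mR hdet, hden, hpt, det_mR hdet.ne']
  have hd : ((shiftX q j).det : ℤ) = (q : ℤ) ^ 2 := by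
    rw [shiftX, Matrix.det_fin_two_of]; ring
  have hq : (q : ℂ) ≠ 0 := NeZero.ne _
  rw [hd]
  simp
  field_simp

/-- `Γ₀(N q²)` permutes the translates by multiples of `1 / q`. -/
theorem slash_shiftX_two (hf : ∀ γ ∈ Gamma0 N, f ∣[(2 : ℤ)] γ = f) {γ : SL(2, ℤ)}
    (hγ : γ ∈ Gamma0 (N * q ^ 2)) (j : ZMod q) :
    (f ∣[(2 : ℤ)] mR (shiftX q (j.val : ℤ))) ∣[(2 : ℤ)] γ =
      f ∣[(2 : ℤ)] mR (shiftX q
        (((j * (γ.1 1 1 : ZMod q) * (γ.1 1 1 : ZMod q)).val : ℕ) : ℤ)) := by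
  obtain ⟨c, hc⟩ : ((N * q ^ 2 : ℕ) : ℤ) ∣ γ.1 1 0 :=
    (ZMod.intCast_zmod_eq_zero_iff_dvd _ _).1 (Gamma0_mem.1 hγ)
  push_cast at hc
  have hq : γ ∈ Gamma0 q := by
    rw [Gamma0_mem, ZMod.intCast_zmod_eq_zero_iff_dvd, hc]
    exact ⟨(N : ℤ) * q * c, by ring⟩
  have had := det_cast_mul hq
  set j' : ℕ := (j * (γ.1 1 1 : ZMod q) * (γ.1 1 1 : ZMod q)).val with hj'
  obtain ⟨e, he⟩ : (q : ℤ) ∣ (j.val : ℤ) * γ.1 1 1 - (j' : ℤ) * γ.1 0 0 := by
    rw [← ZMod.intCast_zmod_eq_zero_iff_dvd]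
    push_cast
    rw [ZMod.natCast_zmod_val, hj', ZMod.natCast_zmod_val]
    linear_combination (-(j * (γ.1 1 1 : ZMod q))) * had
  set X := shiftX q (j.val : ℤ)
  set X' := shiftX q (j' : ℤ) with hX'
  have hdX' : X'.det ≠ 0 := (shiftX_det_pos _).ne'
  set Y : MatZ := !![γ.1 0 0 + (j.val : ℤ) * ((N : ℤ) * q * c),
    γ.1 0 1 + e - (j.val : ℤ) * (j' : ℤ) * ((N : ℤ) * c);
    γ.1 1 0, γ.1 1 1 - (j' : ℤ) * ((N : ℤ) * q * c)] with hY
  have hXY : X * γ.1 = Y * X' := by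
    ext r s
    fin_cases r <;> fin_cases s <;>
      simp [X, hX', hY, shiftX, Matrix.mul_apply, Fin.sum_univ_two, hc, -ZMod.natCast_val] <;>
      first
        | ring1
        | linear_combination he
  have hdet : Y.det = 1 := by
    have h := congrArg Matrix.det hXY
    rw [Matrix.det_mul, Matrix.det_mul, γ.2, mul_one] at h
    have hXd : X.det = X'.det := by simp [X, hX', shiftX, Matrix.det_fin_two_of]
    rw [hXd] at h
    exact mul_right_cancel₀ hdX' (by rw [one_mul]; exact h.symm)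
  let γ' : SL(2, ℤ) := ⟨Y, hdet⟩
  have hγ' : γ' ∈ Gamma0 N := Gamma0_mem.2 (by
    show ((Y 1 0 : ℤ) : ZMod N) = 0
    rw [hY]
    simp [hc])
  rw [← slash_mR_mul' γ (shiftX_det_pos _).ne', hXY, show Y = (γ' : SL(2, ℤ)).1 from rfl,
    slash_mR_mul γ' hdX', hf γ' hγ']

/-- The twist. -/
def twistTwo (ψ : DirichletCharacter ℂ q) (f : ℍ → ℂ) : ℍ → ℂ :=
  (q : ℂ)⁻¹ • ∑ j : ZMod q, twistWeight ψ j • (f ∣[(2 : ℤ)] mR (shiftX q (j.val : ℤ)))

/-- The Fourier transform of a character of square one is invariant by squares of units. -/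
theorem twistWeight_mul_sq {ψ : DirichletCharacter ℂ q} (hψ : ∀ u : (ZMod q)ˣ, ψ u * ψ u = 1)
    (j : ZMod q) (u : (ZMod q)ˣ) : twistWeight ψ (j * u * u) = twistWeight ψ j := by
  unfold twistWeight
  refine Fintype.sum_equiv ((Units.mulRight u).trans (Units.mulRight u)) _ _ fun x => ?_
  simp only [Equiv.trans_apply, Units.mulRight_apply, map_mul]
  rw [mul_assoc (ψ x), hψ, mul_one, show j * (x * u * u) = j * u * u * x by ring]

theorem twistTwo_mem (hf : f ∈ cuspForms N 2) {ψ : DirichletCharacter ℂ q}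
    (hψ : ∀ u : (ZMod q)ˣ, ψ u * ψ u = 1) : twistTwo ψ f ∈ cuspForms (N * q ^ 2) 2 := by
  have hs : f ∈ space (Gamma0 N) 2 := ⟨hf.1.1, hf.1.2.1, hf.2⟩
  refine Submodule.smul_mem _ _ ?_
  have hz : ∀ δ : SL(2, ℤ), IsZeroAtImInfty ((∑ j : ZMod q,
      twistWeight ψ j • (f ∣[(2 : ℤ)] mR (shiftX q (j.val : ℤ)))) ∣[(2 : ℤ)] δ) := fun δ => by
    rw [SlashAction.sum_slash]
    simp only [ModularForm.SL_smul_slash]
    have h2 : Tendsto (fun z => ∑ j : ZMod q, twistWeight ψ j *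
        ((f ∣[(2 : ℤ)] mR (shiftX q (j.val : ℤ))) ∣[(2 : ℤ)] δ) z) atImInfty
        (𝓝 (∑ j : ZMod q, twistWeight ψ j * 0)) :=
      tendsto_finsetSum _ fun j _ =>
        (isZeroAtImInfty_slash_mR_slash hs (shiftX_det_pos _) δ).const_mul _
    simpa [IsZeroAtImInfty, ZeroAtFilter, Finset.sum_fn, ModularForm.SL_smul_slash,
      Pi.smul_def, smul_eq_mul] using h2
  refine ⟨⟨fun γ hγ => ?_, MDifferentiable.sum fun j _ => (mdiff_slash_mR hs _).const_smul _,
    fun δ => (hz δ).isBoundedAtImInfty⟩, hz⟩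
  have hq : γ ∈ Gamma0 q := by
    rw [Gamma0_mem, ZMod.intCast_zmod_eq_zero_iff_dvd] at hγ ⊢
    exact (Int.natCast_dvd_natCast.2 (dvd_mul_of_dvd_right (dvd_pow_self q two_ne_zero) N)).trans hγ
  have had := det_cast_mul hq
  let u : (ZMod q)ˣ := Units.mkOfMulEqOne _ _ (by rw [mul_comm]; exact had :
    (γ.1 1 1 : ZMod q) * (γ.1 0 0 : ZMod q) = 1)
  rw [SlashAction.sum_slash]
  refine Fintype.sum_equiv ((Units.mulRight u).trans (Units.mulRight u)) _ _ fun j => ?_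
  rw [ModularForm.SL_smul_slash, slash_shiftX_two hf.1.1 hγ j, ← twistWeight_mul_sq hψ j u]
  rfl

theorem qExp_twistTwo [NeZero N] (hf : f ∈ cuspForms N 2) {ψ : DirichletCharacter ℂ q}
    (hψ : ∀ u : (ZMod q)ˣ, ψ u * ψ u = 1) (n : ℕ) :
    (qExp (twistTwo ψ f)).coeff n = ψ (n : ZMod q) * (qExp f).coeff n := by
  have hQ := isQFun_of_mem hf.1
  have hD := isQFun_of_mem (twistTwo_mem hf hψ).1
  refine ((hD.coeff_unique (c := fun n => ψ (n : ZMod q) * (qExp f).coeff n)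
    (fun τ => ?_) n)).symm
  have hj : ∀ j : ZMod q, HasSum (fun m : ℕ => (qExp f).coeff m *
      (twistWeight ψ j * ZMod.stdAddChar (j * (m : ZMod q))) *
        Function.Periodic.qParam 1 τ ^ m)
      ((twistWeight ψ j • (f ∣[(2 : ℤ)] mR (shiftX q (j.val : ℤ)))) τ) := fun j => by
    rw [Pi.smul_apply, smul_eq_mul, slash_shiftX_two_apply]
    refine ((hasSum_qExpansion one_pos hQ.periodic hQ.mdiff hQ.bdd
      ((((j.val : ℤ) : ℝ) / q) +ᵥ τ)).mul_left (twistWeight ψ j)).congr_fun fun m => ?_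
    have hq : (q : ℂ) ≠ 0 := NeZero.ne _
    have e1 : Function.Periodic.qParam 1 (((((j.val : ℤ) : ℝ) / q) +ᵥ τ : ℍ) : ℂ) =
        ZMod.stdAddChar j * Function.Periodic.qParam 1 τ := by
      conv_rhs => rw [← ZMod.natCast_zmod_val j, ← Int.cast_natCast, ZMod.stdAddChar_coe]
      rw [UpperHalfPlane.coe_vadd, Function.Periodic.qParam, Function.Periodic.qParam,
        ← Complex.exp_add]
      congr 1
      push_cast
      field_simp
    rw [e1, mul_pow, ← AddChar.map_nsmul_eq_pow, nsmul_eq_mul, mul_comm (m : ZMod q) j,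
      smul_eq_mul]
    ring
  rw [twistTwo, Pi.smul_apply, smul_eq_mul, Finset.sum_apply]
  refine ((hasSum_sum (s := (Finset.univ : Finset (ZMod q))) fun j _ => hj j).mul_left
    (q : ℂ)⁻¹).congr_fun fun m => ?_
  rw [← sum_twistWeight ψ (m : ZMod q)]
  simp only [Finset.mul_sum, Finset.sum_mul, smul_eq_mul]
  exact Finset.sum_congr rfl fun j _ => by ring

/-- **The twist of a normalised eigenform by a quadratic character.** -/
theorem exists_twist_eigenform [NeZero N] {f : CuspForm (Gamma0 N) 2}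
    (hf : f.IsNormalizedEigenform) {ψ : DirichletCharacter ℂ q}
    (hψ : ∀ u : (ZMod q)ˣ, ψ u * ψ u = 1) :
    ∃ g : CuspForm (Gamma0 (N * q ^ 2)) 2, g.IsNormalizedEigenform ∧ ∀ n : ℕ,
      ModularFormClass.qCoeff g n = ψ (n : ZMod q) * ModularFormClass.qCoeff f n := by
  have : NeZero (N * q ^ 2) := ⟨mul_ne_zero (NeZero.ne N) (pow_ne_zero _ (NeZero.ne q))⟩
  have hm := coe_mem_cuspForms f
  let g : CuspForm (Gamma0 (N * q ^ 2)) 2 := toCuspForm' (twistTwo ψ f) (twistTwo_mem hm hψ)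
  have hg : ∀ n, ModularFormClass.qCoeff g n = ψ (n : ZMod q) * ModularFormClass.qCoeff f n :=
    fun n => qExp_twistTwo hm hψ n
  refine ⟨g, ⟨?_, fun m n hmn => ?_, fun p r hp hpM => ?_, fun p r hp hpM => ?_⟩, hg⟩
  · rw [hg, Nat.cast_one, map_one, one_mul, hf.qCoeff_one]
  · rw [hg, hg, hg, Nat.cast_mul, map_mul, hf.qCoeff_mul_of_coprime m n hmn]
    ring
  · have hpN : ¬ p ∣ N := fun h => hpM (h.mul_right _)
    have hpq : ¬ p ∣ q := fun h => hpM ((h.trans (dvd_pow_self q two_ne_zero)).mul_left N)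
    obtain ⟨v, hv⟩ : IsUnit ((p : ℕ) : ZMod q) :=
      (ZMod.isUnit_iff_coprime p q).mpr (hp.coprime_iff_not_dvd.mpr hpq)
    have h1 : ψ ((p : ℕ) : ZMod q) * ψ ((p : ℕ) : ZMod q) = 1 := by rw [← hv]; exact hψ v
    rw [hg, hg, hg, hg, hf.qCoeff_prime_pow_of_not_dvd p r hp hpN]
    simp only [Nat.cast_pow, map_pow]
    simp only [pow_succ]
    linear_combination (-(p : ℂ)) * (ψ ((p : ℕ) : ZMod q)) ^ r *
      ModularFormClass.qCoeff f (p ^ r) * h1
  · rw [hg, hg, hg]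
    by_cases hpq : p ∣ q
    · have h0 : ψ ((p : ℕ) : ZMod q) = 0 := ψ.map_nonunit fun h =>
        ((Nat.Prime.coprime_iff_not_dvd hp).mp ((ZMod.isUnit_iff_coprime p q).mp h)) hpq
      simp only [Nat.cast_pow, map_pow, h0]
      simp
    · have hpN : p ∣ N := (hp.dvd_mul.mp hpM).resolve_right fun h => hpq (hp.dvd_of_dvd_pow h)
      rw [hf.qCoeff_prime_pow_of_dvd p r hp hpN]
      simp only [Nat.cast_pow, map_pow]
      simp only [pow_succ]
      ring

end FA.Twists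

end
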