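import Fermat.Agent.Root.LFunctionFE
import Fermat.Agent.Twists.Form

/-!
# The Fricke involution on a quadratic twist

Let `f` be an eigenform of squarefree level `N` whose coefficients at the primes of the level have
square one and `ψ` a character of square one modulo `q` with no smaller modulus. With `N₁` the
product of the primes of `N` prime to `q`, the twist of `f` by `ψ` is an eigenvector of
`τ ↦ -1 / (N₁ q² τ)` with eigenvalue `ψ (-N₁) ∏ (-a_l)`, the product over the primes of `N₁`.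
-/

set_option autoImplicit false

noncomputable section

open UpperHalfPlane hiding I
open ModularForm CongruenceSubgroup Complex
open FA.Period FA.Weight1 FA.Root.FuncEq
open FA.LTReduce (twistWeight)
open scoped Real MatrixGroups

namespace FA.Twists

section weight

variable {q : ℕ} [NeZero q] {ψ : DirichletCharacter ℂ q}

theorem twistWeight_mul_unit (hψ : ∀ u : (ZMod q)ˣ, ψ u * ψ u = 1) (j : ZMod q) (u : (ZMod q)ˣ) :
    twistWeight ψ (j * u) = ψ u * twistWeight ψ j := by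
  rw [twistWeight, twistWeight, Finset.mul_sum]
  refine Fintype.sum_equiv (Units.mulLeft u) _ _ fun x => ?_
  rw [Units.mulLeft_apply, map_mul, ← mul_assoc, ← mul_assoc, hψ, one_mul, mul_assoc]

/-- For a character with no smaller modulus the weights are supported on the units. -/
theorem twistWeight_eq_zero (hψ : ∀ u : (ZMod q)ˣ, ψ u * ψ u = 1)
    (hnd : ∀ p : ℕ, p.Prime → p ∣ q → ∃ n : ℕ, ((q / p : ℕ) : ℤ) ∣ (n : ℤ) - 1 ∧
      ψ (n : ZMod q) = -1) {j : ZMod q} (hj : ¬ IsUnit j) : twistWeight ψ j = 0 := by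
  obtain ⟨p, hp, hpj, hpq⟩ := Nat.Prime.not_coprime_iff_dvd.mp fun h : j.val.Coprime q =>
    hj (ZMod.natCast_zmod_val j ▸ (ZMod.isUnit_iff_coprime _ _).mpr h)
  obtain ⟨n, hn, hψn⟩ := hnd p hp hpq
  obtain ⟨u, hu⟩ : IsUnit (n : ZMod q) := by
    by_contra h
    rw [ψ.map_nonunit h] at hψn
    exact neg_ne_zero.mpr one_ne_zero hψn.symm
  have hju : j * (u : ZMod q) = j := by
    rw [hu, ← sub_eq_zero, show j * (n : ZMod q) - j = j * ((n : ZMod q) - 1) by ring]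
    obtain ⟨a, ha⟩ := hpj
    obtain ⟨b, hb⟩ := hn
    have e : ((q : ℤ) : ZMod q) = 0 := by simp
    rw [show j = (((p * a : ℕ) : ℤ) : ZMod q) by rw [← ha]; simp,
      show ((n : ZMod q) - 1) = ((((q / p : ℕ) : ℤ) * b : ℤ) : ZMod q) by rw [← hb]; push_cast; rfl,
      ← Int.cast_mul, show ((p * a : ℕ) : ℤ) * (((q / p : ℕ) : ℤ) * b) =
        ((p * (q / p) : ℕ) : ℤ) * ((a : ℤ) * b) by push_cast; ring,
      Nat.mul_div_cancel' hpq, Int.cast_mul, e, zero_mul]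
  have h := twistWeight_mul_unit hψ j u
  rw [hju, hu, hψn] at h
  linear_combination (1 / 2 : ℂ) * h

end weight

variable {N : ℕ} [NeZero N]

omit [NeZero N] in
/-- All Atkin–Lehner matrices for the same divisor act in the same way. -/
theorem slash_alMat {Q : ℕ} (hQ : Q ≠ 0) (hQN : Q ∣ N) {f : ℍ → ℂ} (hf : f ∈ cuspForms N 2)
    {X X₀ : Matrix (Fin 2) (Fin 2) ℤ} (h : X.det ≠ 0) (h₀ : X₀.det ≠ 0) (hX : IsALMat N Q X)
    (hX₀ : IsALMat N Q X₀) : f ∣[(2 : ℤ)] matR X h = f ∣[(2 : ℤ)] matR X₀ h₀ := by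
  obtain ⟨⟨a, ha⟩, ⟨d, hd⟩, ⟨c, hc⟩, hdet⟩ := hX
  obtain ⟨⟨a₀, ha₀⟩, ⟨d₀, hd₀⟩, ⟨c₀, hc₀⟩, hdet₀⟩ := hX₀
  obtain ⟨K, hK⟩ : (Q : ℤ) ∣ (N : ℤ) := Int.natCast_dvd_natCast.mpr hQN
  have hQ0 : (Q : ℤ) ≠ 0 := Int.natCast_ne_zero.mpr hQ
  rw [Matrix.det_fin_two, ha, hd, hc, hK] at hdet
  rw [Matrix.det_fin_two, ha₀, hd₀, hc₀, hK] at hdet₀
  have e1 : (Q : ℤ) * a * d - X 0 1 * K * c = 1 :=
    mul_left_cancel₀ hQ0 (by linear_combination hdet)
  have e2 : (Q : ℤ) * a₀ * d₀ - X₀ 0 1 * K * c₀ = 1 :=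
    mul_left_cancel₀ hQ0 (by linear_combination hdet₀)
  let γ : SL(2, ℤ) := ⟨!![(Q : ℤ) * a * d₀ - X 0 1 * K * c₀, X 0 1 * a₀ - a * X₀ 0 1;
    (N : ℤ) * (c * d₀ - d * c₀), Q * d * a₀ - K * c * X₀ 0 1], by
      rw [Matrix.det_fin_two_of, hK]
      linear_combination (Q * a₀ * d₀ - X₀ 0 1 * K * c₀) * e1 + e2⟩
  have hγ : γ ∈ Gamma0 N := by rw [Gamma0_mem]; simp [γ]
  have hγ1 : (γ : Matrix (Fin 2) (Fin 2) ℤ).det ≠ 0 := by rw [γ.det_coe]; norm_num
  have e : X = (γ : Matrix (Fin 2) (Fin 2) ℤ) * X₀ := by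
    ext i j
    fin_cases i <;> fin_cases j <;>
      simp [γ, Matrix.mul_apply, Fin.sum_univ_two, ha, hd, hc, ha₀, hd₀, hc₀, hK]
    · linear_combination -((Q : ℤ) * a) * e2
    · linear_combination -(X 0 1) * e2
    · linear_combination -((Q : ℤ) * K * c) * e2
    · linear_combination -((Q : ℤ) * d) * e2
  have key : ∀ (Y : Matrix (Fin 2) (Fin 2) ℤ) (hY : Y.det ≠ 0),
      Y = (γ : Matrix (Fin 2) (Fin 2) ℤ) * X₀ →
        f ∣[(2 : ℤ)] matR Y hY = f ∣[(2 : ℤ)] matR X₀ h₀ := by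
    intro Y hY eY
    subst eY
    rw [matR_mul hγ1 h₀, SlashAction.slash_mul, matR_sl, ← SL_slash, hf.1.1 γ hγ]
  exact key X h e

variable {f : CuspForm (Gamma0 N) 2} {q : ℕ} [NeZero q]

/-- The primes of the level prime to `q`. -/
def goodPart (N q : ℕ) : ℕ := ∏ l ∈ N.primeFactors.filter (fun l => ¬ l ∣ q), l

theorem goodPart_ne_zero (N q : ℕ) : goodPart N q ≠ 0 :=
  Finset.prod_ne_zero_iff.mpr fun _ hl =>
    (Nat.prime_of_mem_primeFactors (Finset.mem_filter.mp hl).1).ne_zero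

theorem squarefree_goodPart (N q : ℕ) : Squarefree (goodPart N q) :=
  FA.Theta.squarefree_prod_primes _ fun _ hl =>
    Nat.prime_of_mem_primeFactors (Finset.mem_filter.mp hl).1

omit [NeZero N] [NeZero q] in
theorem goodPart_dvd (hsq : Squarefree N) : goodPart N q ∣ N := by
  conv_rhs => rw [← Nat.prod_primeFactors_of_squarefree hsq]
  exact Finset.prod_dvd_prod_of_subset _ _ _ (Finset.filter_subset _ _)

omit [NeZero N] [NeZero q] in
theorem coprime_goodPart (N q : ℕ) : (goodPart N q).Coprime q :=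
  Nat.Coprime.prod_left fun _ hl => (Nat.Prime.coprime_iff_not_dvd
    (Nat.prime_of_mem_primeFactors (Finset.mem_filter.mp hl).1)).mpr (Finset.mem_filter.mp hl).2

omit [NeZero N] [NeZero q] in
theorem dvd_goodPart_mul (hsq : Squarefree N) : N ∣ goodPart N q * q := by
  conv_lhs => rw [← Nat.prod_primeFactors_of_squarefree hsq]
  refine Finset.prod_primes_dvd _ (fun l hl => (Nat.prime_of_mem_primeFactors hl).prime)
    fun l hl => ?_
  by_cases h : l ∣ q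
  · exact h.mul_left _
  · exact dvd_mul_of_dvd_left
      (Finset.dvd_prod_of_mem (fun l => l) (Finset.mem_filter.mpr ⟨hl, h⟩)) _

/-- **Atkin–Lehner between two translates**: for `N₁ u v ≡ -1` modulo `q`. -/
theorem apply_translate (hf : f.IsNormalizedEigenform) (hsq : Squarefree N)
    (ha : ∀ l : ℕ, l.Prime → l ∣ N → ModularFormClass.qCoeff f l ^ 2 = 1) {u v : ℤ}
    (huv : (q : ℤ) ∣ u * goodPart N q * v + 1) (τ w : ℍ)
    (hw : (w : ℂ) = -1 / (((goodPart N q : ℕ) * q ^ 2 : ℕ) * (τ : ℂ))) :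
    f (((u : ℝ) / q) +ᵥ w) = (∏ l ∈ N.primeFactors.filter (fun l => ¬ l ∣ q),
      -ModularFormClass.qCoeff f l) * (((goodPart N q : ℕ) * q ^ 2 : ℕ) * (τ : ℂ) ^ 2) *
        f (((v : ℝ) / q) +ᵥ τ) := by
  set Q := goodPart N q with hQdef
  obtain ⟨X₀, hX₀, hal, hact⟩ := exists_alMat hf hsq ha (N.primeFactors.filter (fun l => ¬ l ∣ q))
    fun l hl => ⟨Nat.prime_of_mem_primeFactors (Finset.mem_filter.mp hl).1,
      Nat.dvd_of_mem_primeFactors (Finset.mem_filter.mp hl).1⟩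
  obtain ⟨e, he⟩ := huv
  have hQ0 : Q ≠ 0 := goodPart_ne_zero N q
  let X : Matrix (Fin 2) (Fin 2) ℤ := !![u * Q, -e; (Q : ℤ) * q, -((Q : ℤ) * v)]
  have hdet : X.det = (Q : ℤ) := by
    rw [Matrix.det_fin_two_of]
    linear_combination -(Q : ℤ) * he
  have hX : X.det ≠ 0 := by rw [hdet]; exact_mod_cast hQ0
  have hXal : IsALMat N Q X := by
    refine ⟨dvd_mul_left _ _, (dvd_mul_right _ _).neg_right, ?_, hdet⟩
    have := Int.natCast_dvd_natCast.mpr (dvd_goodPart_mul (q := q) hsq)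
    push_cast at this
    simpa [X] using this
  rw [← slash_alMat hQ0 (goodPart_dvd hsq) (coe_mem_cuspForms f) hX hX₀ hXal hal] at hact
  set c := ∏ l ∈ N.primeFactors.filter (fun l => ¬ l ∣ q), -ModularFormClass.qCoeff f l
  set z : ℍ := ((v : ℝ) / q) +ᵥ τ with hz
  have hpos : (0 : ℝ) < ((matR X hX).det : ℝ) := by
    rw [Matrix.GeneralLinearGroup.val_det_apply, val_matR, ← RingHom.mapMatrix_apply,
      ← RingHom.map_det, hdet]
    simpa using Nat.pos_of_ne_zero hQ0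
  have h := congrFun hact z
  have hq : (q : ℂ) ≠ 0 := NeZero.ne _
  have hτ0 : (τ : ℂ) ≠ 0 := τ.ne_zero
  have hQC : (Q : ℂ) ≠ 0 := Nat.cast_ne_zero.mpr hQ0
  have he' : (u : ℂ) * Q * v + 1 = q * e := by exact_mod_cast congrArg (Int.cast : ℤ → ℂ) he
  have hden : denom (matR X hX) z = (Q : ℂ) * q * τ := by
    simp [denom, X, hz]
    field_simp
    ring
  have hpt : matR X hX • z = ((u : ℝ) / q) +ᵥ w := by
    apply UpperHalfPlane.ext
    rw [coe_smul_of_det_pos hpos, hden, UpperHalfPlane.coe_vadd ((u : ℝ) / q), hw]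
    simp [num, X, hz]
    field_simp
    linear_combination he'
  have hdetX : ((matR X hX).det : ℝ) = Q := by
    rw [Matrix.GeneralLinearGroup.val_det_apply, val_matR, ← RingHom.mapMatrix_apply,
      ← RingHom.map_det, hdet]
    simp
  simp only [slash_def, σ, if_pos hpos, hpt, Pi.smul_apply, smul_eq_mul] at h
  rw [hden, hdetX] at h
  simp at h
  field_simp at h
  push_cast
  linear_combination h

/-- **A twist inherits an involution exchanging translates**: if `u / q` goes to `v / q` for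
`Q u v ≡ -1` modulo `q`, the twist is an eigenvector for `τ ↦ -1 / (Q q² τ)`. -/
theorem twistTwo_eigen_of_translate {f : ℍ → ℂ} {Q : ℕ} (hQ : Q.Coprime q) {c : ℂ} {τ w : ℍ}
    (htr : ∀ u v : ℤ, (q : ℤ) ∣ u * Q * v + 1 → f (((u : ℝ) / q) +ᵥ w) =
      c * (((Q * q ^ 2 : ℕ) : ℂ) * (τ : ℂ) ^ 2) * f (((v : ℝ) / q) +ᵥ τ))
    {ψ : DirichletCharacter ℂ q} (hψ : ∀ u : (ZMod q)ˣ, ψ u * ψ u = 1)
    (hnd : ∀ p : ℕ, p.Prime → p ∣ q → ∃ n : ℕ, ((q / p : ℕ) : ℤ) ∣ (n : ℤ) - 1 ∧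
      ψ (n : ZMod q) = -1) :
    twistTwo ψ f w = ψ (-(Q : ZMod q)) * c * (((Q * q ^ 2 : ℕ) : ℂ) * (τ : ℂ) ^ 2) *
      twistTwo ψ f τ := by
  classical
  obtain ⟨n₁, hn₁⟩ : IsUnit (-(Q : ZMod q)) :=
    ((ZMod.isUnit_iff_coprime _ _).mpr hQ).neg
  have hsum : ∀ σ : ℍ, twistTwo ψ f σ = (q : ℂ)⁻¹ * ∑ u : (ZMod q)ˣ,
      ψ u * twistWeight ψ 1 * f (((((u : ZMod q).val : ℤ) : ℝ) / q) +ᵥ σ) := by
    intro σ
    rw [twistTwo, Pi.smul_apply, Finset.sum_apply, smul_eq_mul]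
    congr 1
    symm
    refine Fintype.sum_of_injective (fun u : (ZMod q)ˣ => (u : ZMod q))
      (fun _ _ h => Units.ext h) _ _ (fun j hj => ?_) fun u => ?_
    · rw [Pi.smul_apply, twistWeight_eq_zero hψ hnd fun ⟨u, hu⟩ => hj ⟨u, hu⟩, zero_smul]
    · rw [Pi.smul_apply, smul_eq_mul, slash_shiftX_two_apply,
        ← one_mul (u : ZMod q), twistWeight_mul_unit hψ, one_mul]
  rw [hsum w, hsum τ, mul_left_comm (ψ (-(Q : ZMod q)) * c * (((Q * q ^ 2 : ℕ) : ℂ) * (τ : ℂ) ^ 2)),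
    Finset.mul_sum (a := ψ (-(Q : ZMod q)) * c * (((Q * q ^ 2 : ℕ) : ℂ) * (τ : ℂ) ^ 2))]
  congr 1
  refine Fintype.sum_equiv ((Equiv.mulLeft n₁).trans (Equiv.inv _)) _ _ fun u => ?_
  simp only [Equiv.trans_apply, Equiv.coe_mulLeft, Equiv.inv_apply]
  set v : (ZMod q)ˣ := (n₁ * u)⁻¹ with hv
  rw [htr _ ((v : ZMod q).val : ℤ) ?_, ← hn₁]
  · have key : ψ (u : ZMod q) = ψ (n₁ : ZMod q) * ψ (v : ZMod q) := by
      have h1 : ψ ((n₁ * u : (ZMod q)ˣ) : ZMod q) * ψ (v : ZMod q) = 1 := by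
        rw [← map_mul, ← Units.val_mul, hv, mul_inv_cancel, Units.val_one, map_one]
      rw [Units.val_mul, map_mul] at h1
      linear_combination (-(ψ (u : ZMod q))) * h1 +
        (ψ (n₁ : ZMod q) * ψ (v : ZMod q)) * hψ u
    rw [key]
    ring
  · rw [← ZMod.intCast_zmod_eq_zero_iff_dvd]
    push_cast
    rw [ZMod.natCast_zmod_val, ZMod.natCast_zmod_val]
    have h1 : ((n₁ : ZMod q) * u) * (v : ZMod q) = 1 := by
      rw [← Units.val_mul, ← Units.val_mul, hv, mul_inv_cancel, Units.val_one]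
    rw [hn₁] at h1
    linear_combination -h1

/-- **The twist is an eigenvector of the Fricke involution of its level.** -/
theorem twistTwo_fricke (hf : f.IsNormalizedEigenform) (hsq : Squarefree N)
    (ha : ∀ l : ℕ, l.Prime → l ∣ N → ModularFormClass.qCoeff f l ^ 2 = 1)
    {ψ : DirichletCharacter ℂ q} (hψ : ∀ u : (ZMod q)ˣ, ψ u * ψ u = 1)
    (hnd : ∀ p : ℕ, p.Prime → p ∣ q → ∃ n : ℕ, ((q / p : ℕ) : ℤ) ∣ (n : ℤ) - 1 ∧
      ψ (n : ZMod q) = -1) (τ w : ℍ)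
    (hw : (w : ℂ) = -1 / (((goodPart N q : ℕ) * q ^ 2 : ℕ) * (τ : ℂ))) :
    twistTwo ψ f w = ψ (-(goodPart N q : ZMod q)) *
      (∏ l ∈ N.primeFactors.filter (fun l => ¬ l ∣ q), -ModularFormClass.qCoeff f l) *
        (((goodPart N q : ℕ) * q ^ 2 : ℕ) * (τ : ℂ) ^ 2) * twistTwo ψ f τ :=
  twistTwo_eigen_of_translate (coprime_goodPart N q)
    (fun _ _ h => apply_translate hf hsq ha h τ w hw) hψ hnd

/-- The completed L-function of a cusp form for the conductor `M`. -/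
def completedAt {L : ℕ} [NeZero L] (M : ℕ) (g : CuspForm (Gamma0 L) 2) (s : ℂ) : ℂ :=
  ((Real.sqrt M : ℝ) : ℂ) ^ s *
    ModularForm.Λ (Γ := (Gamma0 L : Subgroup (GL (Fin 2) ℝ))) (k := 2) two_pos g s

theorem differentiable_completedAt {L : ℕ} [NeZero L] (M : ℕ) [NeZero M]
    (g : CuspForm (Gamma0 L) 2) : Differentiable ℂ (completedAt M g) := by
  refine Differentiable.mul (differentiable_id.const_cpow (Or.inl ?_))
    (CuspForm.differentiable_Λ two_pos g)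
  rw [Complex.ofReal_ne_zero]
  exact (Real.sqrt_pos.mpr (Nat.cast_pos.mpr (NeZero.pos M))).ne'

/-- The completed L-function is the Mellin transform of the form on the scaled imaginary axis. -/
theorem completedAt_eq_mellin {L M : ℕ} [NeZero L] [NeZero M] (g : CuspForm (Gamma0 L) 2) (s : ℂ) :
    completedAt M g s =
      mellin (fun t : ℝ => g (ofComplex (I * ((Real.sqrt M)⁻¹ * t : ℝ)))) s := by
  have hM : 0 < Real.sqrt M := Real.sqrt_pos.mpr (Nat.cast_pos.mpr (NeZero.pos M))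
  rw [completedAt, CuspForm.Λ_eq_mellin two_pos g,
    mellin_comp_mul_left (fun t : ℝ => g (ofComplex (I * (t : ℂ)))) s (inv_pos.mpr hM),
    smul_eq_mul, Complex.ofReal_inv, inv_cpow _ _ (by
      rw [Complex.arg_ofReal_of_nonneg hM.le]; exact Real.pi_ne_zero.symm), cpow_neg, inv_inv]

/-- An eigenvector of `τ ↦ -1 / (M τ)` on the scaled imaginary axis at `1 / t`. -/
theorem imAxis_inversion {L M : ℕ} [NeZero M] (g : CuspForm (Gamma0 L) 2) {c : ℂ}
    (hg : ∀ τ w : ℍ, (w : ℂ) = -1 / ((M : ℂ) * (τ : ℂ)) →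
      g w = c * ((M : ℂ) * (τ : ℂ) ^ 2) * g τ) {t : ℝ} (ht : 0 < t) :
    g (ofComplex (I * ((Real.sqrt M)⁻¹ * t⁻¹ : ℝ))) =
      (t : ℂ) ^ (2 : ℂ) • ((-c) • g (ofComplex (I * ((Real.sqrt M)⁻¹ * t : ℝ)))) := by
  have hM : 0 < Real.sqrt M := Real.sqrt_pos.mpr (Nat.cast_pos.mpr (NeZero.pos M))
  have h1 : 0 < (I * (((Real.sqrt M)⁻¹ * t : ℝ) : ℂ)).im := by
    simpa [NeZero.pos M] using mul_pos (inv_pos.mpr hM) ht
  have h2 : 0 < (I * (((Real.sqrt M)⁻¹ * t⁻¹ : ℝ) : ℂ)).im := by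
    simpa [NeZero.pos M] using mul_pos (inv_pos.mpr hM) (inv_pos.mpr ht)
  rw [ofComplex_apply_of_im_pos h1, ofComplex_apply_of_im_pos h2]
  have hsq2 : ((Real.sqrt M : ℝ) : ℂ) ^ 2 = (M : ℂ) := by
    rw [← Complex.ofReal_pow, Real.sq_sqrt (Nat.cast_nonneg M), Complex.ofReal_natCast]
  have hs0 : ((Real.sqrt M : ℝ) : ℂ) ≠ 0 := Complex.ofReal_ne_zero.mpr hM.ne'
  have ht0 : (t : ℂ) ≠ 0 := Complex.ofReal_ne_zero.mpr ht.ne'
  rw [hg ⟨_, h1⟩ ⟨_, h2⟩ (by
    push_cast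
    rw [← hsq2]
    field_simp
    linear_combination Complex.I_sq)]
  generalize g ⟨_, h1⟩ = A
  push_cast
  simp only [smul_eq_mul, cpow_ofNat]
  rw [← hsq2]
  field_simp
  linear_combination (c * A) * Complex.I_sq

/-- **The functional equation** of a cusp form which is an eigenvector of `τ ↦ -1 / (M τ)`. -/
theorem completedAt_two_sub {L M : ℕ} [NeZero L] [NeZero M] (g : CuspForm (Gamma0 L) 2) {c : ℂ}
    (hg : ∀ τ w : ℍ, (w : ℂ) = -1 / ((M : ℂ) * (τ : ℂ)) →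
      g w = c * ((M : ℂ) * (τ : ℂ) ^ 2) * g τ) (s : ℂ) :
    completedAt M g (2 - s) = -c * completedAt M g s := by
  set φ : ℝ → ℂ := fun t => g (ofComplex (I * ((Real.sqrt M)⁻¹ * t : ℝ))) with hφ
  have hm : ∀ u : ℂ, completedAt M g (-u) = (-c) * completedAt M g (u + 2) := fun u => by
    rw [completedAt_eq_mellin, completedAt_eq_mellin, ← mellin_comp_inv]
    have e : mellin (fun t => φ t⁻¹) u = mellin (fun t => (t : ℂ) ^ (2 : ℂ) • ((-c) • φ t)) u :=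
      MeasureTheory.setIntegral_congr_fun measurableSet_Ioi
        fun t ht => by simp only [hφ, imAxis_inversion g hg (Set.mem_Ioi.mp ht)]
    rw [e, mellin_cpow_smul, mellin_const_smul, smul_eq_mul]
  rw [show 2 - s = -(s - 2) by ring, hm, sub_add_cancel]

theorem completedAt_eq_LSeries {L M : ℕ} [NeZero L] [NeZero M] (g : CuspForm (Gamma0 L) 2) {s : ℂ}
    (hs : 2 < s.re) : completedAt M g s = (M : ℂ) ^ (s / 2) * (2 * (π : ℂ)) ^ (-s) *
      Complex.Gamma s * LSeries (ModularFormClass.qCoeff g) s := by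
  have h := completed_eq_LSeries g hs
  have e : ∀ n : ℕ, n ≠ 0 → ((Real.sqrt n : ℝ) : ℂ) ^ s = (n : ℂ) ^ (s / 2) := fun n hn => by
    have hn' : 0 < Real.sqrt n := Real.sqrt_pos.mpr (Nat.cast_pos.mpr (Nat.pos_of_ne_zero hn))
    have e2 : ((Real.sqrt n : ℝ) : ℂ) ^ (2 : ℕ) = (n : ℂ) := by
      rw [← Complex.ofReal_pow, Real.sq_sqrt (Nat.cast_nonneg n), Complex.ofReal_natCast]
    rw [← e2, ← cpow_nat_mul' (x := ((Real.sqrt n : ℝ) : ℂ))]
    · congr 1; ring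
    all_goals
      rw [Complex.arg_ofReal_of_nonneg hn'.le]
      simp [Real.pi_pos, Real.pi_pos.le]
  have hL : (L : ℂ) ^ (s / 2) ≠ 0 := by
    rw [Ne, Complex.cpow_eq_zero_iff]; simp [NeZero.ne L]
  rw [completed, e L (NeZero.ne L)] at h
  rw [completedAt, e M (NeZero.ne M)]
  simp only [mul_assoc] at h ⊢
  rw [mul_left_cancel₀ hL h]

end FA.Twists

end
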