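import Fermat.Agent.Root.SummaryTwistCriterion
import Fermat.Agent.Root.LFunctionAll

/-!
# The Euler factors of a quadratic twist of a semistable curve

Let `F` have a semistable equation `W` and let the invariants of `E` be those of the twist of `W`
by a squarefree integer `D`. At a prime `l` not dividing the discriminant of `ℚ(√D)` the Euler
factor of `E` is that of `F` twisted by the Kronecker symbol `twistSign D l`, and at the others,
`2` included, `E` has additive reduction and the factor is trivial.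
-/

set_option autoImplicit false

noncomputable section

open WeierstrassCurve IsLocalRing IsDedekindDomain.HeightOneSpectrum IsDiscreteValuationRing
open FA.Root (twistEquation nodeQuad splitSign SplitModel)

namespace FA.Twists

/-- The Kronecker symbol of the discriminant of `ℚ(√D)` at a prime, `D` squarefree. -/
def twistSign (D : ℤ) (l : ℕ) : ℤ :=
  if l = 2 then (if D % 8 = 1 then 1 else if D % 8 = 5 then -1 else 0) else jacobiSym D l

section finite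

variable {F : Type} [Field F] [Fintype F] [DecidableEq F]

/-- A twisted equation, at odd characteristic. -/
def oddTwist {R : Type*} [CommRing R] (W : WeierstrassCurve R) (D : R) : WeierstrassCurve R :=
  ⟨0, D * W.b₂, 0, 8 * D ^ 2 * W.b₄, 16 * D ^ 3 * W.b₆⟩

theorem oddTwist_invariants {R : Type*} [CommRing R] (W : WeierstrassCurve R) (D : R) :
    (oddTwist W D).c₄ = 16 * D ^ 2 * W.c₄ ∧ (oddTwist W D).c₆ = 64 * D ^ 3 * W.c₆ ∧
      (oddTwist W D).Δ = 4096 * D ^ 6 * W.Δ := by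
  refine ⟨?_, ?_, ?_⟩ <;>
    simp only [oddTwist, c₄, c₆, WeierstrassCurve.Δ, b₂, b₄, b₆, b₈] <;> ring

theorem traceOfFrobenius_oddTwist (hF : ringChar F ≠ 2) {d : F} (hd : d ≠ 0)
    (U : WeierstrassCurve F) (hΔ : U.Δ ≠ 0) :
    (oddTwist U d).traceOfFrobenius = quadraticChar F d * U.traceOfFrobenius := by
  have h2 : (2 : F) ≠ 0 := Ring.two_ne_zero hF
  have h4 : (4 : F) ≠ 0 := by rw [show (4 : F) = 2 * 2 by norm_num]; exact mul_ne_zero h2 h2
  have hΔ' : (oddTwist U d).Δ ≠ 0 := by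
    rw [(oddTwist_invariants U d).2.2, show (4096 : F) = 2 ^ 12 by norm_num]
    exact mul_ne_zero (mul_ne_zero (pow_ne_zero _ h2) (pow_ne_zero _ hd)) hΔ
  rw [traceOfFrobenius, traceOfFrobenius, WeierstrassCurve.card, WeierstrassCurve.card,
    natCard_point_eq_sum hF U hΔ, natCard_point_eq_sum hF _ hΔ', Nat.card_eq_fintype_card]
  have h : ∑ x : F, quadraticChar F (4 * x ^ 3 + (oddTwist U d).b₂ * x ^ 2 +
        2 * (oddTwist U d).b₄ * x + (oddTwist U d).b₆) =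
      quadraticChar F d * ∑ x : F, quadraticChar F
        (4 * x ^ 3 + U.b₂ * x ^ 2 + 2 * U.b₄ * x + U.b₆) := by
    rw [Finset.mul_sum]
    refine (Fintype.sum_equiv (Equiv.mulLeft₀ (4 * d) (mul_ne_zero h4 hd)) _ _ fun x => ?_).symm
    have hb : (oddTwist U d).b₂ = 4 * d * U.b₂ ∧ (oddTwist U d).b₄ = 16 * d ^ 2 * U.b₄ ∧
        (oddTwist U d).b₆ = 64 * d ^ 3 * U.b₆ := by
      refine ⟨?_, ?_, ?_⟩ <;> simp only [oddTwist, b₂, b₄, b₆] <;> ring
    rw [hb.1, hb.2.1, hb.2.2, show Equiv.mulLeft₀ (4 * d) (mul_ne_zero h4 hd) x = 4 * d * x from rfl,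
      ← map_mul, show 4 * (4 * d * x) ^ 3 + 4 * d * U.b₂ * (4 * d * x) ^ 2 +
        2 * (16 * d ^ 2 * U.b₄) * (4 * d * x) + 64 * d ^ 3 * U.b₆ =
        (8 * d) ^ 2 * (d * (4 * x ^ 3 + U.b₂ * x ^ 2 + 2 * U.b₄ * x + U.b₆)) by ring,
      map_mul (quadraticChar F) ((8 * d) ^ 2), quadraticChar_sq_one', one_mul]
    rw [show (8 : F) = 4 * 2 by norm_num]
    exact mul_ne_zero (mul_ne_zero h4 h2) hd
  rw [h]
  ring

end finite

theorem apOfModel_oddTwist {l : ℕ} [Fact l.Prime] (hl2 : l ≠ 2) {W : WeierstrassCurve ℤ} {D : ℤ}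
    (hD : ¬ (l : ℤ) ∣ D) (hgood : ¬ (l : ℤ) ∣ W.Δ) :
    (oddTwist W D).apOfModel l = jacobiSym D l * W.apOfModel l := by
  have e : (oddTwist W D).reductionMod l = oddTwist (W.reductionMod l) (D : ZMod l) := by
    ext <;> simp [reductionMod, oddTwist]
  rw [apOfModel, apOfModel, e, ← jacobiSym.legendreSym.to_jacobiSym]
  refine traceOfFrobenius_oddTwist ((ZMod.ringChar_zmod_n l).trans_ne hl2)
    (fun h => hD ((ZMod.intCast_zmod_eq_zero_iff_dvd _ _).mp h)) _ fun h => hgood ?_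
  rw [reductionMod, map_Δ, eq_intCast] at h
  exact (ZMod.intCast_zmod_eq_zero_iff_dvd _ _).mp h

theorem splitModel_iff (W : WeierstrassCurve ℤ) (q : ℕ) :
    SplitModel W q ↔ ∃ T : ZMod q, nodeQuad (W.map (Int.castRingHom (ZMod q))) T = 0 := by
  simp only [SplitModel, nodeQuad, map_c₄, map_a₁, map_a₂, map_b₂, map_b₄, map_b₆, eq_intCast,
    Int.cast_mul, Int.cast_sub, Int.cast_add, Int.cast_ofNat]

/-- The sign at a node is the square class of `-c₄ c₆`. -/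
theorem splitSign_eq_quadraticChar {l : ℕ} [Fact l.Prime] (hl2 : l ≠ 2) (W : WeierstrassCurve ℤ)
    (hΔ : (l : ℤ) ∣ W.Δ) (hc : ¬ (l : ℤ) ∣ W.c₄) :
    splitSign W l = quadraticChar (ZMod l) ((-(W.c₄ * W.c₆) : ℤ) : ZMod l) := by
  have h2 : (2 : ZMod l) ≠ 0 := Ring.two_ne_zero ((ZMod.ringChar_zmod_n l).trans_ne hl2)
  have : NeZero (2 : ZMod l) := ⟨h2⟩
  set a : ZMod l := (W.c₄ : ZMod l) with ha
  set b : ZMod l := ((W.a₁ * W.c₄ : ℤ) : ZMod l) with hb
  set c : ZMod l := -((54 * W.b₆ - 3 * W.b₂ * W.b₄ + W.a₂ * W.c₄ : ℤ) : ZMod l) with hc'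
  have ha0 : a ≠ 0 := fun h => hc ((ZMod.intCast_zmod_eq_zero_iff_dvd _ _).mp h)
  have hdisc : discrim a b c = ((-(W.c₄ * W.c₆) : ℤ) : ZMod l) := by
    simp only [discrim, ha, hb, hc', c₄, c₆, b₂, b₄, b₆]
    push_cast
    ring
  have hsplit : SplitModel W l ↔ IsSquare (discrim a b c) := by
    constructor
    · rintro ⟨T, hT⟩
      exact ⟨2 * a * T + b, by
        rw [discrim_eq_sq_of_quadratic_eq_zero (x := T) (by linear_combination hT), sq]⟩
    · rintro ⟨s, hs⟩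
      obtain ⟨T, hT⟩ := exists_quadratic_eq_zero ha0 ⟨s, hs⟩
      exact ⟨T, by linear_combination hT⟩
  have h6 : ((-(W.c₄ * W.c₆) : ℤ) : ZMod l) ≠ 0 := by
    intro h
    rw [ZMod.intCast_zmod_eq_zero_iff_dvd, dvd_neg] at h
    have hp := Nat.prime_iff_prime_int.mp (Fact.out : l.Prime)
    have h6 := (hp.dvd_or_dvd h).resolve_left hc
    refine hc (hp.dvd_of_dvd_pow (n := 3) ?_)
    rw [show W.c₄ ^ 3 = 1728 * W.Δ + W.c₆ ^ 2 by linear_combination -W.c_relation]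
    exact dvd_add (hΔ.mul_left _) (dvd_pow h6 two_ne_zero)
  rw [← hdisc] at h6 ⊢
  by_cases h : IsSquare (discrim a b c)
  · rw [splitSign, if_pos (hsplit.mpr h), (quadraticChar_one_iff_isSquare h6).mpr h]
  · rw [splitSign, if_neg (mt hsplit.mp h), quadraticChar_neg_one_iff_not_isSquare.mpr h]

theorem splitSign_oddTwist {l : ℕ} [Fact l.Prime] (hl2 : l ≠ 2) {W : WeierstrassCurve ℤ} {D : ℤ}
    (hD : ¬ (l : ℤ) ∣ D) (hΔ : (l : ℤ) ∣ W.Δ) (hc : ¬ (l : ℤ) ∣ W.c₄) :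
    splitSign (oddTwist W D) l = jacobiSym D l * splitSign W l := by
  obtain ⟨e4, e6, eΔ⟩ := oddTwist_invariants W D
  have hp := Nat.prime_iff_prime_int.mp (Fact.out : l.Prime)
  have h2 : ¬ (l : ℤ) ∣ 2 := fun h =>
    hl2 ((Nat.prime_dvd_prime_iff_eq Fact.out Nat.prime_two).mp (by exact_mod_cast h))
  have hc' : ¬ (l : ℤ) ∣ (oddTwist W D).c₄ := by
    rw [e4, show (16 : ℤ) = 2 ^ 4 by norm_num]
    intro h
    rcases hp.dvd_or_dvd h with h | h
    · rcases hp.dvd_or_dvd h with h | h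
      exacts [h2 (hp.dvd_of_dvd_pow h), hD (hp.dvd_of_dvd_pow h)]
    · exact hc h
  rw [splitSign_eq_quadraticChar hl2 _ (eΔ ▸ hΔ.mul_left _) hc',
    splitSign_eq_quadraticChar hl2 W hΔ hc, ← jacobiSym.legendreSym.to_jacobiSym, legendreSym,
    ← map_mul, e4, e6, show ((-(16 * D ^ 2 * W.c₄ * (64 * D ^ 3 * W.c₆)) : ℤ) : ZMod l) =
      ((32 * D ^ 2 : ℤ) : ZMod l) ^ 2 * ((D : ZMod l) * ((-(W.c₄ * W.c₆) : ℤ) : ZMod l)) by
        push_cast; ring, map_mul, quadraticChar_sq_one', one_mul]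
  rw [Ne, ZMod.intCast_zmod_eq_zero_iff_dvd, show (32 : ℤ) = 2 ^ 5 by norm_num]
  intro h
  rcases hp.dvd_or_dvd h with h | h
  exacts [h2 (hp.dvd_of_dvd_pow h), hD (hp.dvd_of_dvd_pow h)]

section two

theorem twistEquation_map {R S : Type*} [CommRing R] [CommRing S] (f : R →+* S)
    (V : WeierstrassCurve R) (k : R) :
    (twistEquation V k).map f = twistEquation (V.map f) (f k) := by
  ext <;> simp [twistEquation, map_ofNat]

theorem twistEquation_zero {R : Type*} [CommRing R] (V : WeierstrassCurve R) :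
    twistEquation V 0 = V := by
  ext <;> simp [twistEquation]

theorem twistEquation_invariants {R : Type*} [CommRing R] (V : WeierstrassCurve R) (k : R) :
    (twistEquation V k).c₄ = (4 * k + 1) ^ 2 * V.c₄ ∧
      (twistEquation V k).c₆ = (4 * k + 1) ^ 3 * V.c₆ ∧
      (twistEquation V k).Δ = (4 * k + 1) ^ 6 * V.Δ := by
  refine ⟨?_, ?_, ?_⟩ <;>
    simp only [twistEquation, c₄, c₆, WeierstrassCurve.Δ, b₂, b₄, b₆, b₈] <;> ring

/-- The number of affine points over the field with two elements. -/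
def countTwo (U : WeierstrassCurve (ZMod 2)) : ℕ :=
  (Finset.univ.filter fun xy : ZMod 2 × ZMod 2 => xy.2 ^ 2 + U.a₁ * xy.1 * xy.2 + U.a₃ * xy.2 =
    xy.1 ^ 3 + U.a₂ * xy.1 ^ 2 + U.a₄ * xy.1 + U.a₆).card

theorem traceOfFrobenius_two (U : WeierstrassCurve (ZMod 2)) (hΔ : U.Δ ≠ 0) :
    U.traceOfFrobenius = 2 - (countTwo U : ℤ) := by
  classical
  rw [traceOfFrobenius, WeierstrassCurve.card, Nat.card_zmod,
    Nat.card_congr (U.toAffine.nonsingularPointEquiv.trans (Equiv.optionCongr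
      (Equiv.subtypeEquivRight fun xy : ZMod 2 × ZMod 2 =>
        ((Affine.equation_iff_nonsingular_of_Δ_ne_zero hΔ).symm.trans
          (Affine.equation_iff xy.1 xy.2))))),
    Nat.card_eq_fintype_card, Fintype.card_option, Fintype.card_subtype]
  show ((2 : ℕ) : ℤ) + 1 - ((countTwo U + 1 : ℕ) : ℤ) = _
  push_cast
  ring

theorem zmod_two_cases : ∀ r : ZMod 2, r = 0 ∨ r = 1 := by decide

theorem countTwo_twist : ∀ a₁ a₂ a₃ a₄ a₆ : ZMod 2,
    (⟨a₁, a₂, a₃, a₄, a₆⟩ : WeierstrassCurve (ZMod 2)).Δ ≠ 0 →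
      countTwo (twistEquation ⟨a₁, a₂, a₃, a₄, a₆⟩ 1) + countTwo ⟨a₁, a₂, a₃, a₄, a₆⟩ = 4 := by
  unfold countTwo twistEquation WeierstrassCurve.Δ b₂ b₄ b₆ b₈
  decide +kernel

theorem nodeQuad_twist : ∀ a₁ a₂ a₃ a₄ a₆ : ZMod 2,
    (⟨a₁, a₂, a₃, a₄, a₆⟩ : WeierstrassCurve (ZMod 2)).c₄ ≠ 0 →
      ((∃ T, nodeQuad (twistEquation ⟨a₁, a₂, a₃, a₄, a₆⟩ 1) T = 0) ↔
        ¬ ∃ T, nodeQuad (⟨a₁, a₂, a₃, a₄, a₆⟩ : WeierstrassCurve (ZMod 2)) T = 0) := by
  unfold nodeQuad twistEquation c₄ b₂ b₄ b₆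
  decide +kernel

variable (W : WeierstrassCurve ℤ) (k : ℤ)

theorem twistSign_two : twistSign (4 * k + 1) 2 = if (k : ZMod 2) = 0 then 1 else -1 := by
  simp only [ZMod.intCast_zmod_eq_zero_iff_dvd, twistSign]
  rw [if_pos trivial]
  push_cast
  split_ifs <;> omega

theorem apOfModel_twistEquation_two (hgood : ¬ (2 : ℤ) ∣ W.Δ) :
    (twistEquation W k).apOfModel 2 = twistSign (4 * k + 1) 2 * W.apOfModel 2 := by
  rw [twistSign_two, apOfModel, apOfModel, reductionMod, reductionMod, twistEquation_map,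
    eq_intCast]
  set U := W.map (Int.castRingHom (ZMod 2))
  have hΔ : U.Δ ≠ 0 := fun h => hgood (by
    rw [map_Δ, eq_intCast] at h
    exact_mod_cast (ZMod.intCast_zmod_eq_zero_iff_dvd _ 2).mp h)
  rcases zmod_two_cases (k : ZMod 2) with h | h <;> rw [h]
  · rw [twistEquation_zero, if_pos rfl, one_mul]
  · have h' : (twistEquation U 1).Δ ≠ 0 := by
      rw [(twistEquation_invariants U 1).2.2]
      exact mul_ne_zero (pow_ne_zero _ (by decide)) hΔ
    rw [if_neg one_ne_zero, traceOfFrobenius_two U hΔ, traceOfFrobenius_two _ h']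
    have h4 : countTwo (twistEquation U 1) + countTwo U = 4 := countTwo_twist _ _ _ _ _ hΔ
    push_cast [← Nat.cast_inj (R := ℤ)] at h4
    linear_combination -h4

theorem splitSign_twistEquation_two (hc : ¬ (2 : ℤ) ∣ W.c₄) :
    splitSign (twistEquation W k) 2 = twistSign (4 * k + 1) 2 * splitSign W 2 := by
  simp only [twistSign_two, splitSign, splitModel_iff, twistEquation_map, eq_intCast]
  set U := W.map (Int.castRingHom (ZMod 2))
  have hc' : U.c₄ ≠ 0 := fun h => hc (by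
    rw [map_c₄, eq_intCast] at h
    exact_mod_cast (ZMod.intCast_zmod_eq_zero_iff_dvd _ 2).mp h)
  rcases zmod_two_cases (k : ZMod 2) with h | h <;> rw [h]
  · rw [twistEquation_zero, if_pos rfl, one_mul]
  · have hiff : (∃ T, nodeQuad (twistEquation U 1) T = 0) ↔ ¬ ∃ T, nodeQuad U T = 0 :=
      nodeQuad_twist _ _ _ _ _ hc'
    rw [if_neg one_ne_zero]
    by_cases hs : ∃ T, nodeQuad U T = 0
    · rw [if_pos hs, if_neg fun h' => hiff.mp h' hs]; norm_num
    · rw [if_neg hs, if_pos (hiff.mpr hs)]; norm_num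

end two

section additive

/-- An equation semistable at two has `c₆ ≡ -1 mod 4` or `c₆ ≡ 8 mod 32`, as `c₄` is odd or
even. -/
theorem c₆_mod_two {R : Type*} [CommRing R] (h1 : ¬ (2 : R) ∣ 1)
    (h2 : ∀ r : R, (2 : R) ∣ r ∨ (2 : R) ∣ r - 1) (V : WeierstrassCurve R)
    (hV : ¬ ((2 : R) ∣ V.Δ ∧ (2 : R) ∣ V.c₄)) :
    (¬ (2 : R) ∣ V.c₄ ∧ (4 : R) ∣ V.c₆ + 1) ∨ ((2 : R) ∣ V.c₄ ∧ (32 : R) ∣ V.c₆ - 8) := by
  rcases h2 V.a₁ with ⟨s, hs⟩ | ⟨s, hs⟩
  · have hb : V.b₂ = 4 * (s ^ 2 + V.a₂) := by simp only [b₂, hs]; ring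
    have hb4 : V.b₄ = 2 * (V.a₄ + s * V.a₃) := by simp only [b₄, hs]; ring
    have hc : (2 : R) ∣ V.c₄ :=
      ⟨8 * (s ^ 2 + V.a₂) ^ 2 - 12 * V.b₄, by simp only [c₄, hb]; ring⟩
    refine Or.inr ⟨hc, ?_⟩
    rcases h2 V.a₃ with ⟨t, ht⟩ | ⟨t, ht⟩
    · refine absurd ⟨⟨-8 * (s ^ 2 + V.a₂) ^ 2 * V.b₈ - 32 * (V.a₄ + s * V.a₃) ^ 3 -
        216 * (t ^ 2 + V.a₆) ^ 2 +
        144 * (s ^ 2 + V.a₂) * (V.a₄ + s * V.a₃) * (t ^ 2 + V.a₆), ?_⟩, hc⟩ hV
      simp only [WeierstrassCurve.Δ, hb, hb4, show V.b₆ = 4 * (t ^ 2 + V.a₆) by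
        simp only [b₆, ht]; ring]
      ring
    · refine ⟨-2 * (s ^ 2 + V.a₂) ^ 3 + 9 * (s ^ 2 + V.a₂) * (V.a₄ + s * V.a₃) - 7 -
        27 * (t + t ^ 2 + V.a₆), ?_⟩
      simp only [c₆, hb, hb4, show V.b₆ = 1 + 4 * (t + t ^ 2 + V.a₆) by
        simp only [b₆, sub_eq_iff_eq_add.mp ht]; ring]
      ring
  · have hb : V.b₂ = 1 + 4 * (s + s ^ 2 + V.a₂) := by
      simp only [b₂, sub_eq_iff_eq_add.mp hs]; ring
    refine Or.inl ⟨fun ⟨c, hc⟩ => h1 ⟨c - (4 * (s + s ^ 2 + V.a₂) +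
      8 * (s + s ^ 2 + V.a₂) ^ 2 - 12 * V.b₄), ?_⟩,
      ⟨-3 * (s + s ^ 2 + V.a₂) - 12 * (s + s ^ 2 + V.a₂) ^ 2 - 16 * (s + s ^ 2 + V.a₂) ^ 3 +
        9 * V.b₂ * V.b₄ - 54 * V.b₆, by simp only [c₆, hb]; ring⟩⟩
    simp only [c₄, hb] at hc
    linear_combination hc

variable {R K : Type*} [CommRing R] [IsDomain R] [IsDiscreteValuationRing R] [Field K]
  [Algebra R K] [IsFractionRing R K] {p : ℕ} [Fact p.Prime]

local notation "val" => valuation K (IsDiscreteValuationRing.maximalIdeal R)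

/-- The local factor of the twist of a semistable equation by a ramified class is trivial. -/
theorem localPolynomial_eq_one_of_twist (hϖ : Irreducible (p : R))
    (e : ResidueField R ≃+* ZMod p) (W : WeierstrassCurve ℤ)
    (hs : (p : ℤ) ∣ W.Δ → ¬ (p : ℤ) ∣ W.c₄) (E : WeierstrassCurve K) {x : K} (hx : x ≠ 0) {D : ℤ}
    (hD : (∃ m : ℤ, D = p * m ∧ ¬ (p : ℤ) ∣ m) ∨ (p = 2 ∧ D % 4 = 3))
    (h4 : E.c₄ = x ^ 4 * (D : K) ^ 2 * (W.c₄ : K)) (h6 : E.c₆ = x ^ 6 * (D : K) ^ 3 * (W.c₆ : K))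
    (hΔ : E.Δ = x ^ 12 * (D : K) ^ 6 * (W.Δ : K)) : E.localPolynomial R = 1 := by
  set M := E.minimal R with hM
  suffices hno : val M.Δ ≠ 1 ∧ val M.c₄ ≠ 1 by
    rw [localPolynomial, if_neg fun h : M.HasGoodReduction R => hno.1 h.goodReduction,
      if_neg fun h : M.HasSplitMultiplicativeReduction R =>
        hno.2 h.toHasMultiplicativeReduction.multiplicativeReduction,
      if_neg fun h : M.HasMultiplicativeReduction R => hno.2 h.multiplicativeReduction]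
  by_contra hno
  rw [not_and_or, not_not, not_not] at hno
  obtain ⟨y, hy0, hy4, hy6, hyΔ⟩ : ∃ y : K, y ≠ 0 ∧ M.c₄ = (y ^ 2 * D) ^ 2 * W.c₄ ∧
      M.c₆ = (y ^ 2 * D) ^ 3 * W.c₆ ∧ M.Δ = (y ^ 2 * D) ^ 6 * W.Δ := by
    refine ⟨((E.exists_isMinimal R).choose.u⁻¹ : Kˣ) * x, mul_ne_zero (Units.ne_zero _) hx,
      ?_, ?_, ?_⟩
    · rw [hM, WeierstrassCurve.minimal, variableChange_c₄, h4]; ring
    · rw [hM, WeierstrassCurve.minimal, variableChange_c₆, h6]; ring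
    · rw [hM, WeierstrassCurve.minimal, variableChange_Δ, hΔ]; ring
  set J := integralModel R M with hJ
  have hJK : J.map (algebraMap R K) = M := baseChange_integralModel_eq R _
  have hint : ∀ n : ℤ, val (n : K) ≤ 1 := fun n => by
    rw [← map_intCast (algebraMap R K)]; exact valuation_le_one _ _
  have hunit : ∀ n : ℤ, val (n : K) = 1 ↔ ¬ (p : ℤ) ∣ n := fun n => by
    rw [← map_intCast (algebraMap R K), FA.Root.valuation_eq_one_iff_residue, ne_eq,
      FA.Root.residue_intCast_eq_zero_iff e]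
  have hdvd : ∀ r : R, (p : R) ∣ r ↔ residue R r = 0 := fun r => by
    rw [residue_eq_zero_iff, hϖ.maximalIdeal_eq, Ideal.mem_span_singleton]
  -- the scaling between the two semistable equations is a unit
  have hW : val (W.Δ : K) = 1 ∨ val (W.c₄ : K) = 1 := by
    rw [hunit, hunit]; exact (em' ((p : ℤ) ∣ W.Δ)).imp_right hs
  have hM4 : val M.c₄ ≤ 1 := by rw [← hJK, map_c₄]; exact valuation_le_one _ _
  have hMΔ : val M.Δ ≤ 1 := by rw [← hJK, map_Δ]; exact valuation_le_one _ _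
  have hz : val (y ^ 2 * D) = 1 := by
    obtain ⟨z, hzy⟩ : ∃ z : K, y ^ 2 * (D : K) = z := ⟨_, rfl⟩
    rw [hzy] at hy4 hyΔ ⊢
    rw [hy4, map_mul, map_pow] at hM4
    rw [hyΔ, map_mul, map_pow] at hMΔ
    rw [hy4, hyΔ] at hno
    simp only [map_mul, map_pow] at hno
    rcases lt_trichotomy (val z) 1 with h | h | h
    · rcases hno with h' | h'
      · exact absurd h' ((mul_le_of_le_one_right' (hint _)).trans_lt
          (pow_lt_one₀ zero_le h (n := 6) (by norm_num))).ne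
      · exact absurd h' ((mul_le_of_le_one_right' (hint _)).trans_lt
          (pow_lt_one₀ zero_le h (n := 2) (by norm_num))).ne
    · exact h
    · rcases hW with h' | h'
      · rw [h', mul_one] at hMΔ
        exact absurd hMΔ (one_lt_pow₀ h (by norm_num)).not_ge
      · rw [h', mul_one] at hM4
        exact absurd hM4 (one_lt_pow₀ h (by norm_num)).not_ge
  have hvy : val y ≠ 0 := (map_ne_zero _).mpr hy0
  rcases hD with ⟨m, rfl, hm⟩ | ⟨rfl, hD4⟩
  · -- the valuation of `D` is odd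
    have hvp : val ((p : ℤ) : K) = WithZero.exp (-1 : ℤ) := by
      rw [Int.cast_natCast, ← map_natCast (algebraMap R K), valuation_of_algebraMap]
      exact intValuation_singleton _ hϖ.ne_zero hϖ.maximalIdeal_eq
    rw [map_mul, Int.cast_mul, map_mul, map_pow, hvp, (hunit m).mpr hm, mul_one,
      ← WithZero.exp_log hvy, ← WithZero.exp_nsmul, ← WithZero.exp_add, ← WithZero.exp_zero,
      WithZero.exp_inj, nsmul_eq_mul] at hz
    push_cast at hz
    omega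
  -- the class of `D` is three modulo four and `c₆` cannot keep its class
  push_cast at hs hdvd hϖ
  have h1 : ¬ (2 : R) ∣ 1 := fun h => hϖ.not_isUnit (isUnit_of_dvd_one h)
  have h2 : ∀ r : R, (2 : R) ∣ r ∨ (2 : R) ∣ r - 1 := fun r => by
    simp only [hdvd, map_sub, map_one, ← map_eq_zero_iff e e.injective, sub_eq_zero]
    exact zmod_two_cases _
  have hD2 : val (D : K) = 1 := (hunit D).mpr (by push_cast; omega)
  have hy1 : val y = 1 := by
    rw [map_mul, map_pow, hD2, mul_one] at hz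
    exact (pow_eq_one_iff.mp hz).resolve_right two_ne_zero
  obtain ⟨Y, hY⟩ := IsDiscreteValuationRing.exists_lift_of_le_one (A := R) (x := y) hy1.le
  obtain ⟨t, ht⟩ : (2 : R) ∣ Y - 1 := (h2 Y).resolve_left fun h => by
    rw [hdvd, ← FA.Root.valuation_lt_one_iff_residue (K := K), hY, hy1] at h
    exact lt_irrefl _ h
  obtain ⟨k, hk⟩ : ∃ k, D = 4 * k + 3 := ⟨D / 4, by omega⟩
  set Z : R := Y ^ 2 * (D : R) with hZ
  have hZ1 : (4 : R) ∣ Z + 1 := ⟨(t + t ^ 2) * (D : R) + (k : R) + 1, by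
    rw [hZ, sub_eq_iff_eq_add.mp ht, hk]; push_cast; ring⟩
  have hZ3 : (4 : R) ∣ Z ^ 3 + 1 := by
    rw [show Z ^ 3 + 1 = (Z + 1) * (Z ^ 2 - Z + 1) by ring]; exact dvd_mul_of_dvd_left hZ1 _
  set V := W.map (Int.castRingHom R) with hVdef
  have hinj := IsFractionRing.injective R K
  have e4 : J.c₄ = Z ^ 2 * V.c₄ := hinj (by
    rw [← map_c₄, hJK, hy4, hZ, hVdef, map_c₄, eq_intCast, map_mul, map_pow, map_mul, map_pow,
      hY, map_intCast, map_intCast])
  have e6 : J.c₆ = Z ^ 3 * V.c₆ := hinj (by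
    rw [← map_c₆, hJK, hy6, hZ, hVdef, map_c₆, eq_intCast, map_mul, map_pow, map_mul, map_pow,
      hY, map_intCast, map_intCast])
  have hV : ¬ ((2 : R) ∣ V.Δ ∧ (2 : R) ∣ V.c₄) := by
    rw [hdvd, hdvd, hVdef, map_Δ, map_c₄, eq_intCast, eq_intCast,
      FA.Root.residue_intCast_eq_zero_iff e, FA.Root.residue_intCast_eq_zero_iff e]
    push_cast
    exact fun h => hs h.1 h.2
  have hJ2 : ¬ ((2 : R) ∣ J.Δ ∧ (2 : R) ∣ J.c₄) := by
    rw [hdvd, hdvd, ← FA.Root.valuation_lt_one_iff_residue (K := K),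
      ← FA.Root.valuation_lt_one_iff_residue (K := K), ← map_Δ, ← map_c₄, hJK]
    rintro ⟨a, b⟩
    rcases hno with h | h
    exacts [a.ne h, b.ne h]
  rcases c₆_mod_two h1 h2 V hV with ⟨ha, ha6⟩ | ⟨ha, ha6⟩ <;>
    rcases c₆_mod_two h1 h2 J hJ2 with ⟨hb, hb6⟩ | ⟨hb, hb6⟩
  · have h : (2 : R) * 2 ∣ 2 * 1 := by
      rw [show (2 : R) * 2 = 4 by norm_num,
        show (2 : R) * 1 = J.c₆ + 1 - Z ^ 3 * (V.c₆ + 1) + (Z ^ 3 + 1) by rw [e6]; ring]
      exact dvd_add (dvd_sub hb6 (ha6.mul_left _)) hZ3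
    exact h1 ((mul_dvd_mul_iff_left hϖ.ne_zero).mp h)
  · have h24 : (2 : R) ∣ 4 := ⟨2, by norm_num⟩
    rw [e4] at hb
    refine h1 ((dvd_add_right ?_).mp (h24.trans hZ1))
    exact hϖ.prime.dvd_of_dvd_pow ((hϖ.prime.dvd_or_dvd hb).resolve_right ha)
  · exact hb (e4 ▸ ha.mul_left _)
  · have h : (2 : R) ^ 4 * 2 ∣ 2 ^ 4 * 1 := by
      rw [show (2 : R) ^ 4 * 2 = 32 by norm_num, show (2 : R) ^ 4 * 1 =
        Z ^ 3 * (V.c₆ - 8) + 8 * (Z ^ 3 + 1) - (J.c₆ - 8) by rw [e6]; ring]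
      refine dvd_sub (dvd_add (ha6.mul_left _) ?_) hb6
      rw [show (32 : R) = 8 * 4 by norm_num]
      exact mul_dvd_mul_left 8 hZ3
    exact h1 ((mul_dvd_mul_iff_left (pow_ne_zero 4 hϖ.ne_zero)).mp h)

end additive

section global

open IsDedekindDomain NumberField
open Rat.HeightOneSpectrum (primesEquiv)

/-- An integral equation with the invariants of `E`, up to scaling, is a model of `E`. -/
theorem isIntegralModelOf_of_invariants {E : WeierstrassCurve ℚ} {U : WeierstrassCurve ℤ} {w : ℚ}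
    (hw : w ≠ 0) (h4 : (U.c₄ : ℚ) = w ^ 4 * E.c₄) (h6 : (U.c₆ : ℚ) = w ^ 6 * E.c₆) :
    U.IsIntegralModelOf E := by
  obtain ⟨C₁, h₁⟩ := exists_smul_eq_short E hw
  obtain ⟨C₂, h₂⟩ := exists_short (FA.Frob.ratCurve U)
  refine ⟨C₂⁻¹ * C₁, ?_⟩
  rw [mul_smul, h₁, inv_smul_eq_iff]
  refine Eq.trans ?_ h₂.symm
  rw [map_c₄, map_c₆, eq_intCast, eq_intCast, h4, h6]

theorem prime_pow_of_model {E F : WeierstrassCurve ℚ} {W U : WeierstrassCurve ℤ}
    (hWF : W.IsIntegralModelOf F) (hUE : U.IsIntegralModelOf E) (hΔ : W.Δ ≠ 0) (hUΔ : U.Δ ≠ 0)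
    {l : ℕ} (hl : l.Prime) (hc : (l : ℤ) ∣ W.Δ → ¬ (l : ℤ) ∣ W.c₄)
    (hiff : (l : ℤ) ∣ U.Δ ↔ (l : ℤ) ∣ W.Δ) (hc' : (l : ℤ) ∣ W.Δ → ¬ (l : ℤ) ∣ U.c₄) {ε : ℤ}
    (hε : ε ^ 2 = 1) (hgood : ¬ (l : ℤ) ∣ W.Δ → U.apOfModel l = ε * W.apOfModel l)
    (hbad : (l : ℤ) ∣ W.Δ → splitSign U l = ε * splitSign W l) (k : ℕ) :
    E.LFunction (l ^ k) = ε ^ k * F.LFunction (l ^ k) := by
  by_cases h : (l : ℤ) ∣ W.Δ
  · rw [FA.Root.LFunction_apply_prime_pow_mult E U hUE hl (hiff.mpr h) hUΔ (hc' h),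
      FA.Root.LFunction_apply_prime_pow_mult F W hWF hl h hΔ (hc h), hbad h, mul_pow]
  induction k using Nat.strong_induction_on with
  | _ k ih =>
    match k with
    | 0 =>
      rw [pow_zero, (FA.Root.isMultiplicative_LFunction E).map_one,
        (FA.Root.isMultiplicative_LFunction F).map_one, pow_zero, one_mul]
    | 1 =>
      rw [pow_one, pow_one, FA.Root.LFunction_apply_prime E U hUE hl (mt hiff.mp h),
        FA.Root.LFunction_apply_prime F W hWF hl h, hgood h]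
    | r + 2 =>
      rw [FA.Root.LFunction_apply_prime_pow_good E U hUE hl (mt hiff.mp h),
        FA.Root.LFunction_apply_prime_pow_good F W hWF hl h, ih (r + 1) (by omega),
        ih r (by omega), hgood h]
      linear_combination ((l : ℤ) * ε ^ r * F.LFunction (l ^ r)) * hε

/-- **The coefficients at prime powers of the twist of a semistable curve.** -/
theorem LFunction_twist_prime_pow {E F : WeierstrassCurve ℚ} {W : WeierstrassCurve ℤ}
    (hWF : W.IsIntegralModelOf F) (hΔ : W.Δ ≠ 0) {D : ℤ}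
    (hD : Squarefree D) {x : ℚ} (hx : x ≠ 0) (h4 : E.c₄ = x ^ 4 * (D : ℚ) ^ 2 * (W.c₄ : ℚ))
    (h6 : E.c₆ = x ^ 6 * (D : ℚ) ^ 3 * (W.c₆ : ℚ)) {l : ℕ} (hl : l.Prime)
    (hs : (l : ℤ) ∣ W.Δ → ¬ (l : ℤ) ∣ W.c₄) (k : ℕ) :
    E.LFunction (l ^ k) = twistSign D l ^ k * F.LFunction (l ^ k) := by
  have hlp := Nat.prime_iff_prime_int.mp hl
  have := Fact.mk hl
  have hD0 : D ≠ 0 := hD.ne_zero
  have hrel : (1728 : ℚ) * W.Δ = (W.c₄ : ℚ) ^ 3 - (W.c₆ : ℚ) ^ 2 := by exact_mod_cast W.c_relation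
  have hΔE : E.Δ = x ^ 12 * (D : ℚ) ^ 6 * (W.Δ : ℚ) := by
    refine mul_left_cancel₀ (show (1728 : ℚ) ≠ 0 by norm_num) ?_
    rw [E.c_relation, h4, h6]
    linear_combination -(x ^ 12 * (D : ℚ) ^ 6) * hrel
  have hx' : x⁻¹ ≠ 0 := inv_ne_zero hx
  -- the ramified primes
  have hram : ((∃ m : ℤ, D = l * m ∧ ¬ (l : ℤ) ∣ m) ∨ (l = 2 ∧ D % 4 = 3)) → twistSign D l = 0 →
      E.LFunction (l ^ k) = twistSign D l ^ k * F.LFunction (l ^ k) := by
    intro hcase h0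
    obtain ⟨v, rfl⟩ : ∃ v : HeightOneSpectrum (𝓞 ℚ), (primesEquiv v : ℕ) = l :=
      ⟨primesEquiv.symm (⟨l, hl⟩ : Nat.Primes),
        congrArg Subtype.val (primesEquiv.apply_symm_apply (⟨l, hl⟩ : Nat.Primes))⟩
    set g := algebraMap ℚ (v.adicCompletion ℚ) with hg
    have hϖ : Irreducible (((primesEquiv v : ℕ)) : v.adicCompletionIntegers ℚ) := by
      rw [← MulEquiv.irreducible_iff
        (Rat.HeightOneSpectrum.adicCompletionIntegers.padicIntEquiv v).toRingEquiv, map_natCast]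
      exact PadicInt.irreducible_p
    have hloc := localPolynomial_eq_one_of_twist hϖ (FA.Root.residueEquivZMod v) W
      hs (E.baseChange (v.adicCompletion ℚ)) (x := g x) ((map_ne_zero g).mpr hx) hcase
      (by show (E.map g).c₄ = _; rw [map_c₄, h4]; simp)
      (by show (E.map g).c₆ = _; rw [map_c₆, h6]; simp)
      (by show (E.map g).Δ = _; rw [map_Δ, hΔE]; simp)
    rw [FA.Root.LFunction_apply_prime_pow, WeierstrassCurve.localPowerSeries, hloc,
      show (1 : Polynomial ℤ) = 1 - Polynomial.C 0 * Polynomial.X by simp,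
      FA.Root.coeff_invOfUnit_linear, h0]
    rcases k with _ | k
    · simp [(FA.Root.isMultiplicative_LFunction F).map_one]
    · simp
  by_cases hdD : (l : ℤ) ∣ D
  · obtain ⟨m, rfl⟩ := hdD
    refine hram (Or.inl ⟨m, rfl, fun ⟨c, hc⟩ => hlp.not_isUnit (hD _ ⟨c, by rw [hc]; ring⟩)⟩) ?_
    rcases eq_or_ne l 2 with rfl | hl2
    · rw [twistSign, if_pos rfl]
      push_cast
      split_ifs <;> omega
    · rw [twistSign, if_neg hl2, ← jacobiSym.legendreSym.to_jacobiSym, legendreSym.eq_zero_iff]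
      simp
  rcases eq_or_ne l 2 with rfl | hl2
  · push_cast at hdD
    by_cases hD4 : D % 4 = 1
    · obtain ⟨j, rfl⟩ : ∃ j, D = 4 * j + 1 := ⟨D / 4, by omega⟩
      obtain ⟨e4, e6, eΔ⟩ := twistEquation_invariants W j
      refine prime_pow_of_model hWF (U := twistEquation W j)
        (isIntegralModelOf_of_invariants hx' ?_ ?_) hΔ
        (by rw [eΔ]; exact mul_ne_zero (pow_ne_zero _ hD0) hΔ) hl hs ?_ (fun h => ?_)
        ?_ (fun h => apOfModel_twistEquation_two W j (by exact_mod_cast h))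
        (fun h => splitSign_twistEquation_two W j (by exact_mod_cast hs h)) k
      · rw [e4, h4]; push_cast; field_simp
      · rw [e6, h6]; push_cast; field_simp
      · rw [eΔ, hlp.dvd_mul]
        exact or_iff_right fun h => hdD (by exact_mod_cast hlp.dvd_of_dvd_pow h)
      · rw [e4, hlp.dvd_mul]
        exact fun h' => h'.elim (fun a => hdD (by exact_mod_cast hlp.dvd_of_dvd_pow a)) (hs h)
      · rw [twistSign_two]; split_ifs <;> norm_num
    · refine hram (Or.inr ⟨rfl, by omega⟩) ?_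
      rw [twistSign, if_pos rfl]
      split_ifs <;> omega
  have h2 : ¬ (l : ℤ) ∣ 2 := fun h =>
    hl2 ((Nat.prime_dvd_prime_iff_eq hl Nat.prime_two).mp (by exact_mod_cast h))
  have hfac : ∀ (i j : ℕ) (n : ℤ), (l : ℤ) ∣ 2 ^ i * D ^ j * n ↔ (l : ℤ) ∣ n := fun i j n => by
    refine ⟨fun h => (hlp.dvd_or_dvd h).resolve_left fun h' => ?_, fun h => h.mul_left _⟩
    rcases hlp.dvd_or_dvd h' with h' | h'
    exacts [h2 (hlp.dvd_of_dvd_pow h'), hdD (hlp.dvd_of_dvd_pow h')]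
  obtain ⟨e4, e6, eΔ⟩ := oddTwist_invariants W D
  rw [show (16 : ℤ) = 2 ^ 4 by norm_num] at e4
  rw [show (4096 : ℤ) = 2 ^ 12 by norm_num] at eΔ
  refine prime_pow_of_model hWF (U := oddTwist W D)
    (isIntegralModelOf_of_invariants (mul_ne_zero two_ne_zero hx') ?_ ?_) hΔ
    (by rw [eΔ]; exact mul_ne_zero (mul_ne_zero (by norm_num) (pow_ne_zero _ hD0)) hΔ) hl hs
    (eΔ ▸ hfac 12 6 _) (fun h => ?_) ?_
    (fun h => (apOfModel_oddTwist hl2 hdD h).trans (by rw [twistSign, if_neg hl2]))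
    (fun h => (splitSign_oddTwist hl2 hdD h (hs h)).trans (by rw [twistSign, if_neg hl2])) k
  · rw [e4, h4]; push_cast; field_simp; ring
  · rw [e6, h6]; push_cast; field_simp; ring
  · rw [e4, hfac]; exact hs h
  · rw [twistSign, if_neg hl2, ← jacobiSym.legendreSym.to_jacobiSym]
    exact legendreSym.sq_one l fun h => hdD ((ZMod.intCast_zmod_eq_zero_iff_dvd _ _).mp h)

end global

end FA.Twists

end
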